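import Mathlib
import Fermat.Agent.LT.T7.B970.Pair2Spec

/-!
# Row LT, tower T7, leaf T7.L2.1.H2a.4.5 `Dn2C970` (helper309, registry 2866): CUT BY FIELDS -- Spec

OFF-MAIN.  Definitions and frozen Props only (the proved top is `Dn2Top.lean`).  No hole,
nothing assumed.  ADDITIVE (new names only, suffix `309`).  Vocabulary: `T7/B970/Pair2Spec`
(helper970, sha256 fab97cea), byte-identical copy.

    dn2C_of309 : Dn2NatC309 K K' → Dn2WfnC309 K K' → Dn2ClassC309 K K' → Dn2CommC309 K K'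
                   → Dn2SuppC309 K K' → B970.Dn2C970 K K'                          (VERBATIM)

`IsDn2Hyp309` = the hypotheses of `B970.Dn2C970`, bundled (same statements, same order).  Every
leaf has ALL the hypotheses of `Dn2C970`, so a leaf is true as soon as the field of `Dn2C970` is.

Notation: `F₁0 = F₁ []`, `W = wsum970 s β F₁0`, `f₂ = c · nat193 a D W`.

| leaf | fields of `IsDn2_970` | content | size |
|---|---|---|---|
| `Dn2NatC309`   | `dn2_test`, `dn2_ek`, `dn2_inv`, `dn2_kill` | `W` is a bi-`H`-invariant EK test function (`IsPre311` + shape + `rep`), `H193.killing_of_torus193`, multiples | L |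
| `Dn2WfnC309`   | `dn2_wfn`  | `R(f₂) ψ = c ∑ β(x) (R(F₁0) ψ)(· x)` + left invariance of `f₂` | M-L |
| `Dn2ClassC309` | `dn2_class` minus `inv` | Hecke operators outside the level and sphere means commute with the translations at `T₀` (kit helper281 `TranslEig`) | M-L |
| `Dn2CommC309`  | `dn2_comm` | `z` central; `f₂` supported in the Iwahori subgroup at `u`, independence of the coset system (kit helper271 `Indep`) | L |
| `Dn2SuppC309`  | `dn2_supp` | `T5.H32.isIwSupported_of_support32`: `f₂ y ≠ 0 → InIwahori u y` (component `1_{I_u}` at `u`) | M |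
-/

set_option autoImplicit false

open AutomorphicForm IsDedekindDomain NumberField MeasureTheory
open scoped ComplexConjugate

noncomputable section

namespace Fermat.Agent.LT.T7.H309.Dn2

open Fermat.Agent.LT.H556 Fermat.Agent.LT.H556.A0 Fermat.Agent.LT.T7
open Fermat.Agent.LT.T7.H305 Fermat.Agent.LT.T7.H893 Fermat.Agent.LT.T7.B981
open Fermat.Agent.LT.T7.B970

attribute [local instance] Fermat.Agent.LT.T5.instMeasurableSpaceG

section Hyp

variable {K K' : Type} [Field K] [NumberField K] [Field K'] [NumberField K'] [Algebra K K']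

open Classical in
/-- **THE HYPOTHESES OF `B970.Dn2C970`**, bundled (same statements, same order). -/
structure IsDn2Hyp309 (ℓ : ℕ) (Φ : HeckeEigensystem K' ℂ) (B : L2Base K K')
    (𝔫 : Ideal (𝓞 K)) (μc : @Measure (GL (Fin 2) ℂ) (borel _))
    (T₀ : Finset (HeightOneSpectrum (𝓞 K)))
    (n n₀ : HeightOneSpectrum (𝓞 K') → ℕ) (m : HeightOneSpectrum (𝓞 K) → ℕ)
    (a : (InfinitePlace K → ℝ) → G K) (D : Set (InfinitePlace K → ℝ))
    (a' : (InfinitePlace K' → ℝ) → G K') (D' : Set (InfinitePlace K' → ℝ))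
    (s : Finset (G K)) (β : G K → ℂ)
    (b : ∀ v : HeightOneSpectrum (𝓞 K), GL (Fin 2) (v.adicCompletion K) → ℂ)
    (c₁ : EigData K' → ℂ) (Φ₁ : List (Gen K') → G K' → ℂ) (F₁ : List (Gen K') → G K → ℂ) :
    Prop where
  cyc : IsCycExt K K' ℓ
  ne_two : ℓ ≠ 2
  tot : TotCplx K
  cusp : A0.IsCuspAdelicSph0 K' Φ
  fib : ConstOnFibres K Φ
  base : IsL2Base ℓ Φ B
  ram : B.RamIn
  lvl : IsLvl981 B 𝔫
  haar : @Measure.IsHaarMeasure _ _ _ (borel _) μc
  exp : IsExp981 B 𝔫 T₀ n n₀ m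
  rel : H193.IsRelTorus 𝔫 B.R.r B.R'.r a D a' D'
  binv : ∀ v ∈ T₀.erase B.u,
    T6.IsBiInv (T6.InU (m v)) (b v) ∧ T6.HasFinSupp (T6.InU (m v)) (b v)
  wt : IsWtDown970 B T₀ m s β b
  pair : IsPair1_981 ℓ Φ B 𝔫 c₁ Φ₁ F₁
  shape : IsAvgPure (upI (K' := K') 𝔫) 𝔫 T₀ (LocA893 B 𝔫 μc T₀ n m) 1 (Φ₁ []) (F₁ [])

end Hyp

section Leaves

variable (K K' : Type) [Field K] [NumberField K] [Field K'] [NumberField K'] [Algebra K K']

/-- **LEAF D2.A = NAT [L]** (fields `dn2_test`, `dn2_ek`, `dn2_inv`, `dn2_kill`).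
Proof.  `W = wsum970 s β F₁0` is `H311.IsPre311` (translates by elements trivial at infinity,
multiples, finite sums); `W y = ∫ pure305 (T ω) (repDn970 B T₀ b (f₀ ω)) (F ω) y dν` (shape of
the first pair + `rep`), and every member is left invariant under `U(𝔫)` (components
bi-invariant under `U(m v)`: `b v`, `1_{I_u}` with `m u ≥ 1`, spherical outside `T₀`) and under
the Iwahori subgroup at `u`; so `W` is a test function with `H193.IsBiHInv 𝔫 1 (fun _ => u)`;
`H193.killing_of_torus193` for the torus data `hrel.down`; multiples by `c`. -/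
def Dn2NatC309 : Prop :=
  ∀ (ℓ : ℕ) (Φ : HeckeEigensystem K' ℂ) (B : L2Base K K') (𝔫 : Ideal (𝓞 K))
    (μc : @Measure (GL (Fin 2) ℂ) (borel _)) (T₀ : Finset (HeightOneSpectrum (𝓞 K)))
    (n n₀ : HeightOneSpectrum (𝓞 K') → ℕ) (m : HeightOneSpectrum (𝓞 K) → ℕ)
    (a : (InfinitePlace K → ℝ) → G K) (D : Set (InfinitePlace K → ℝ))
    (a' : (InfinitePlace K' → ℝ) → G K') (D' : Set (InfinitePlace K' → ℝ))
    (s : Finset (G K)) (β : G K → ℂ)
    (b : ∀ v : HeightOneSpectrum (𝓞 K), GL (Fin 2) (v.adicCompletion K) → ℂ)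
    (c₁ : EigData K' → ℂ) (Φ₁ : List (Gen K') → G K' → ℂ) (F₁ : List (Gen K') → G K → ℂ),
    IsDn2Hyp309 ℓ Φ B 𝔫 μc T₀ n n₀ m a D a' D' s β b c₁ Φ₁ F₁ → ∀ c : ℂ,
      T5.IsTestFn 𝔫 T5.trivType (fun h => c * H193.nat193 a D (wsum970 s β (F₁ [])) h) ∧
      (T5.IsEK B.R.μ (fun h => c * H193.nat193 a D (wsum970 s β (F₁ [])) h) ∧
        T5.IsEK B.R.μ
          (T5.adjointFn (fun h => c * H193.nat193 a D (wsum970 s β (F₁ [])) h))) ∧
      IsUInv 𝔫 1 (fun _ => B.u) (fun h => c * H193.nat193 a D (wsum970 s β (F₁ [])) h) ∧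
      ∀ ψ : G K → ℂ, T5.IsCuspFn 𝔫 T5.trivType B.R.r ψ →
        (∀ χ : G K → ℂ, IsWFn 𝔫 B.R.r 1 (fun _ => B.u) χ → T5.innerD B.R.μ B.R.F ψ χ = 0) →
        ∀ x : G K,
          T5.Rconv B.R.μ (fun h => c * H193.nat193 a D (wsum970 s β (F₁ [])) h) ψ x = 0

/-- **LEAF D2.B = WFN [M-L]** (field `dn2_wfn`).
Proof.  `R(f₂) ψ = c ∑_{x ∈ s} β(x) (R(F₁0) ψ)(· x)` on the continuous functions invariant under
the positive scalars (`killing_of_torus193`, fifth clause; `R(ltr x φ) ψ = (R(φ) ψ)(· x)`);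
`dn1_wfn`; the right translates by elements trivial at infinity of a cusp function are
continuous, bounded, left `GL₂(K)`-invariant, cuspidal, invariant under the ray, the compact
groups and the positive scalars at infinity; the right invariance under `U(𝔫)` and the Iwahori
subgroup at `u` comes from the LEFT invariance of `f₂` (`dn2_inv`) and the left invariance of
the Haar measure. -/
def Dn2WfnC309 : Prop :=
  ∀ (ℓ : ℕ) (Φ : HeckeEigensystem K' ℂ) (B : L2Base K K') (𝔫 : Ideal (𝓞 K))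
    (μc : @Measure (GL (Fin 2) ℂ) (borel _)) (T₀ : Finset (HeightOneSpectrum (𝓞 K)))
    (n n₀ : HeightOneSpectrum (𝓞 K') → ℕ) (m : HeightOneSpectrum (𝓞 K) → ℕ)
    (a : (InfinitePlace K → ℝ) → G K) (D : Set (InfinitePlace K → ℝ))
    (a' : (InfinitePlace K' → ℝ) → G K') (D' : Set (InfinitePlace K' → ℝ))
    (s : Finset (G K)) (β : G K → ℂ)
    (b : ∀ v : HeightOneSpectrum (𝓞 K), GL (Fin 2) (v.adicCompletion K) → ℂ)
    (c₁ : EigData K' → ℂ) (Φ₁ : List (Gen K') → G K' → ℂ) (F₁ : List (Gen K') → G K → ℂ),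
    IsDn2Hyp309 ℓ Φ B 𝔫 μc T₀ n n₀ m a D a' D' s β b c₁ Φ₁ F₁ → ∀ c : ℂ,
      ∀ ψ : G K → ℂ, IsWFn 𝔫 B.R.r 1 (fun _ => B.u) ψ →
        IsWFn 𝔫 B.R.r 1 (fun _ => B.u)
          (T5.Rconv B.R.μ (fun h => c * H193.nat193 a D (wsum970 s β (F₁ [])) h) ψ)

/-- **LEAF D2.C = CLASS [M-L]** (field `dn2_class` without its part `inv`, which is `dn2_wfn`).
Proof.  `R(f₂) ψ = c ∑_{x ∈ s} β(x) (R(F₁0) ψ)(· x)`, `dn1_class`; `x` is trivial at infinity and
outside `T₀` = the prime divisors of `𝔫`, so the right translation by `x` commutes with the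
Hecke operators at the places prime to `𝔫` and with the sphere means (kit helper281
`T7/H281/TranslEig`); linear combinations. -/
def Dn2ClassC309 : Prop :=
  ∀ (ℓ : ℕ) (Φ : HeckeEigensystem K' ℂ) (B : L2Base K K') (𝔫 : Ideal (𝓞 K))
    (μc : @Measure (GL (Fin 2) ℂ) (borel _)) (T₀ : Finset (HeightOneSpectrum (𝓞 K)))
    (n n₀ : HeightOneSpectrum (𝓞 K') → ℕ) (m : HeightOneSpectrum (𝓞 K) → ℕ)
    (a : (InfinitePlace K → ℝ) → G K) (D : Set (InfinitePlace K → ℝ))
    (a' : (InfinitePlace K' → ℝ) → G K') (D' : Set (InfinitePlace K' → ℝ))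
    (s : Finset (G K)) (β : G K → ℂ)
    (b : ∀ v : HeightOneSpectrum (𝓞 K), GL (Fin 2) (v.adicCompletion K) → ℂ)
    (c₁ : EigData K' → ℂ) (Φ₁ : List (Gen K') → G K' → ℂ) (F₁ : List (Gen K') → G K → ℂ),
    IsDn2Hyp309 ℓ Φ B 𝔫 μc T₀ n n₀ m a D a' D' s β b c₁ Φ₁ F₁ → ∀ c : ℂ,
      ∀ (ψ : G K → ℂ) (e : EigData K), IsEigFn 𝔫 B.R.r 1 (fun _ => B.u) ψ e →
        (∀ v : HeightOneSpectrum (𝓞 K), ¬ v.asIdeal ∣ 𝔫 →
          IsHeckeEigenAt
            (T5.Rconv B.R.μ (fun h => c * H193.nat193 a D (wsum970 s β (F₁ [])) h) ψ)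
            v (e.a v) (e.b v)) ∧
        ∀ w : InfinitePlace K,
          MeanEig (T5.Rconv B.R.μ (fun h => c * H193.nat193 a D (wsum970 s β (F₁ [])) h) ψ)
            w (e.m w)

/-- **LEAF D2.D = COMM [L]** (field `dn2_comm`).
Proof.  Shift: `z` is central (`H311.central_scalar311`).  Iwahori operator: `f₂` vanishes
outside `{y : y_u ∈ I_u}` (component `1_{I_u}` at `u`, `a t` trivial at the finite places);
for such `y = y^u y_u`: `ψ(x h y) = ψ(x y^u h)` (`h` is supported at `u`, `ψ` is right invariant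
under `I_u`) and `∑_h ψ(x y^u y_u h) = ∑_h ψ(x y^u h)` (the Iwahori operator does not depend on
the coset system, kit helper271 `T7/H271/Indep`). -/
def Dn2CommC309 : Prop :=
  ∀ (ℓ : ℕ) (Φ : HeckeEigensystem K' ℂ) (B : L2Base K K') (𝔫 : Ideal (𝓞 K))
    (μc : @Measure (GL (Fin 2) ℂ) (borel _)) (T₀ : Finset (HeightOneSpectrum (𝓞 K)))
    (n n₀ : HeightOneSpectrum (𝓞 K') → ℕ) (m : HeightOneSpectrum (𝓞 K) → ℕ)
    (a : (InfinitePlace K → ℝ) → G K) (D : Set (InfinitePlace K → ℝ))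
    (a' : (InfinitePlace K' → ℝ) → G K') (D' : Set (InfinitePlace K' → ℝ))
    (s : Finset (G K)) (β : G K → ℂ)
    (b : ∀ v : HeightOneSpectrum (𝓞 K), GL (Fin 2) (v.adicCompletion K) → ℂ)
    (c₁ : EigData K' → ℂ) (Φ₁ : List (Gen K') → G K' → ℂ) (F₁ : List (Gen K') → G K → ℂ),
    IsDn2Hyp309 ℓ Φ B 𝔫 μc T₀ n n₀ m a D a' D' s β b c₁ Φ₁ F₁ → ∀ c : ℂ,
      ∀ ψ : G K → ℂ, IsWFn 𝔫 B.R.r 1 (fun _ => B.u) ψ →
        ∀ (H : Finset (G K)) (z : G K), IsIwCosetSystem B.u H →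
          IsScalarUniformizerAt B.u z →
          (∀ x : G K,
            T5.Rconv B.R.μ (fun h => c * H193.nat193 a D (wsum970 s β (F₁ [])) h)
                (iwOp B.u H ψ) x
              = iwOp B.u H
                (T5.Rconv B.R.μ (fun h => c * H193.nat193 a D (wsum970 s β (F₁ [])) h) ψ)
                x) ∧
          ∀ (k : ℤ) (x : G K),
            T5.Rconv B.R.μ (fun h => c * H193.nat193 a D (wsum970 s β (F₁ [])) h)
                (shiftOp z k ψ) x
              = shiftOp z k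
                (T5.Rconv B.R.μ (fun h => c * H193.nat193 a D (wsum970 s β (F₁ [])) h) ψ)
                x

/-- **LEAF D2.E = SUPP [M]** (field `dn2_supp`).
Proof.  `f₂` has compact support (`dn2_test`); `f₂ y ≠ 0` ⟹ `W (y a(t)⁻¹) ≠ 0` for some `t`
⟹ a member `pure305 (T ω) (repDn970 …) (F ω)` does not vanish at `y a(t)⁻¹` ⟹ its component
`1_{I_u}` at `u ∈ T₀ ⊆ T ω` does not vanish ⟹ `InIwahori u y` (`a t` is trivial at the finite
places); `T5.H32.isIwSupported_of_support32` with `C = tsupport f₂`. -/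
def Dn2SuppC309 : Prop :=
  ∀ (ℓ : ℕ) (Φ : HeckeEigensystem K' ℂ) (B : L2Base K K') (𝔫 : Ideal (𝓞 K))
    (μc : @Measure (GL (Fin 2) ℂ) (borel _)) (T₀ : Finset (HeightOneSpectrum (𝓞 K)))
    (n n₀ : HeightOneSpectrum (𝓞 K') → ℕ) (m : HeightOneSpectrum (𝓞 K) → ℕ)
    (a : (InfinitePlace K → ℝ) → G K) (D : Set (InfinitePlace K → ℝ))
    (a' : (InfinitePlace K' → ℝ) → G K') (D' : Set (InfinitePlace K' → ℝ))
    (s : Finset (G K)) (β : G K → ℂ)
    (b : ∀ v : HeightOneSpectrum (𝓞 K), GL (Fin 2) (v.adicCompletion K) → ℂ)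
    (c₁ : EigData K' → ℂ) (Φ₁ : List (Gen K') → G K' → ℂ) (F₁ : List (Gen K') → G K → ℂ),
    IsDn2Hyp309 ℓ Φ B 𝔫 μc T₀ n n₀ m a D a' D' s β b c₁ Φ₁ F₁ → ∀ c : ℂ,
      ∃ C : Set (G K), IsCompact C ∧
        T5.H32.IsIwSupported32 1 (fun _ => B.u) C
          (fun h => c * H193.nat193 a D (wsum970 s β (F₁ [])) h)

end Leaves

end Fermat.Agent.LT.T7.H309.Dn2

end
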