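import Mathlib
import Fermat.Agent.LT.T7.H309.Dn2Spec
import Fermat.Agent.LT.T7.H756.LsumDbl
import Fermat.Agent.LT.T7.H49.OpsEig
import Fermat.Agent.LT.H129.CartanInv
import Fermat.Agent.LT.T7.H16.IwAdelic
import Fermat.Agent.LT.T7.H311.EkProdTools

/-!
# Row LT, tower T7, leaf T7.L2.1.H2a.4.5 `Dn2C970` (helper309): THE CORE `W`

OFF-MAIN.  Complete proofs, nothing assumed.  `W = wsum970 s β (F₁ [])`:

* `pure_left309`, `pure_right309`: invariance of a pure tensor from the invariance of its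
  components;
* `member_inv309`: the pure tensors with the replaced components `repDn970` are bi-invariant
  under the elements of `H = I_u · U(𝔫)` (`IsHElt309`);
* `wsum_eq_avg309`: `W y = ∫ pure305 (T ω) (repDn970 B T₀ b (f₀ ω)) (F ω) y dν`;
* `wsum_inv309`: `W` is bi-invariant under `H`; `wsum_iw309`: `W y ≠ 0 → InIwahori u y`;
* `wsum_pre309`: `W` is `H311.IsPre311`; `wsum_test309`: `W` is a test function.
-/

set_option autoImplicit false
set_option linter.unusedSectionVars false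

open AutomorphicForm IsDedekindDomain NumberField MeasureTheory
open scoped ComplexConjugate

noncomputable section

namespace Fermat.Agent.LT.T7.H309.Dn2

open Fermat.Agent.LT.H556 Fermat.Agent.LT.H556.A0 Fermat.Agent.LT.T7
open Fermat.Agent.LT.T7.H305 Fermat.Agent.LT.T7.H893 Fermat.Agent.LT.T7.B981
open Fermat.Agent.LT.T7.B970 Fermat.Agent.LT.T7.H756 Fermat.Agent.LT

attribute [local instance] Fermat.Agent.LT.T5.instMeasurableSpaceG

/-! ## 1. One field: invariance of pure tensors -/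

section OneField

variable {K : Type} [Field K] [NumberField K]

theorem outT_mul_left309 {T : Finset (HeightOneSpectrum (𝓞 K))} {h : G K}
    (hh : ∀ v : HeightOneSpectrum (𝓞 K), v ∉ T → T6.InU 0 (finGL305 v h)) (y : G K) :
    OutT305 T (h * y) ↔ OutT305 T y := by
  rw [outT_iff756, outT_iff756]
  refine forall_congr' fun v => forall_congr' fun hv => ?_
  rw [map_mul]
  constructor
  · intro h1
    have := T6.H777.inU_mul777 (T6.H777.inU_inv777 (hh v hv)) h1
    rwa [inv_mul_cancel_left] at this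
  · intro h1
    exact T6.H777.inU_mul777 (hh v hv) h1

theorem outT_mul_right309 {T : Finset (HeightOneSpectrum (𝓞 K))} {h : G K}
    (hh : ∀ v : HeightOneSpectrum (𝓞 K), v ∉ T → T6.InU 0 (finGL305 v h)) (y : G K) :
    OutT305 T (y * h) ↔ OutT305 T y := by
  rw [outT_iff756, outT_iff756]
  refine forall_congr' fun v => forall_congr' fun hv => ?_
  rw [map_mul]
  constructor
  · intro h1
    have := T6.H777.inU_mul777 h1 (T6.H777.inU_inv777 (hh v hv))
    rwa [mul_inv_cancel_right] at this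
  · intro h1
    exact T6.H777.inU_mul777 h1 (hh v hv)

open Classical in
theorem pure_eq309 (T : Finset (HeightOneSpectrum (𝓞 K)))
    (g₀ : ∀ v : HeightOneSpectrum (𝓞 K), GL (Fin 2) (v.adicCompletion K) → ℂ)
    (F : InfinitePlace K → GL (Fin 2) ℂ → ℂ) (z : G K) :
    pure305 T g₀ F z = if OutT305 T z then
      (∏ v ∈ T, g₀ v (finGL305 v z)) * ∏ w : InfinitePlace K, F w (infGL305 w z) else 0 :=
  rfl

/-- Invariance of a pure tensor on the left. -/
theorem pure_left309 {T : Finset (HeightOneSpectrum (𝓞 K))}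
    {g₀ : ∀ v : HeightOneSpectrum (𝓞 K), GL (Fin 2) (v.adicCompletion K) → ℂ}
    {F : InfinitePlace K → GL (Fin 2) ℂ → ℂ} {h : G K}
    (hinf : ∀ w : InfinitePlace K, infGL305 w h = 1)
    (hout : ∀ v : HeightOneSpectrum (𝓞 K), v ∉ T → T6.InU 0 (finGL305 v h)) (y : G K)
    (hin : ∀ v ∈ T, g₀ v (finGL305 v (h * y)) = g₀ v (finGL305 v y)) :
    pure305 T g₀ F (h * y) = pure305 T g₀ F y := by
  classical
  have e1 := outT_mul_left309 hout y
  rw [pure_eq309, pure_eq309]
  by_cases hy : OutT305 T y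
  · rw [if_pos hy, if_pos (e1.2 hy)]
    congr 1
    · exact Finset.prod_congr rfl fun v hv => hin v hv
    · refine Finset.prod_congr rfl fun w _ => ?_
      rw [map_mul, hinf w, one_mul]
  · rw [if_neg hy, if_neg (fun h' => hy (e1.1 h'))]

/-- Invariance of a pure tensor on the right. -/
theorem pure_right309 {T : Finset (HeightOneSpectrum (𝓞 K))}
    {g₀ : ∀ v : HeightOneSpectrum (𝓞 K), GL (Fin 2) (v.adicCompletion K) → ℂ}
    {F : InfinitePlace K → GL (Fin 2) ℂ → ℂ} {h : G K}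
    (hinf : ∀ w : InfinitePlace K, infGL305 w h = 1)
    (hout : ∀ v : HeightOneSpectrum (𝓞 K), v ∉ T → T6.InU 0 (finGL305 v h)) (y : G K)
    (hin : ∀ v ∈ T, g₀ v (finGL305 v (y * h)) = g₀ v (finGL305 v y)) :
    pure305 T g₀ F (y * h) = pure305 T g₀ F y := by
  classical
  have e1 := outT_mul_right309 hout y
  rw [pure_eq309, pure_eq309]
  by_cases hy : OutT305 T y
  · rw [if_pos hy, if_pos (e1.2 hy)]
    congr 1
    · exact Finset.prod_congr rfl fun v hv => hin v hv
    · refine Finset.prod_congr rfl fun w _ => ?_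
      rw [map_mul, hinf w, mul_one]
  · rw [if_neg hy, if_neg (fun h' => hy (e1.1 h'))]

/-- A pure tensor which does not vanish at `y`: `y` is outside `T` integral and no component
vanishes. -/
theorem pure_ne_zero309 {T : Finset (HeightOneSpectrum (𝓞 K))}
    {g₀ : ∀ v : HeightOneSpectrum (𝓞 K), GL (Fin 2) (v.adicCompletion K) → ℂ}
    {F : InfinitePlace K → GL (Fin 2) ℂ → ℂ} {y : G K} (h : pure305 T g₀ F y ≠ 0) :
    ∀ v ∈ T, g₀ v (finGL305 v y) ≠ 0 := by
  classical
  rw [pure_eq309] at h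
  by_cases hy : OutT305 T y
  · rw [if_pos hy] at h
    intro v hv h0
    exact h (by rw [Finset.prod_eq_zero hv h0, zero_mul])
  · rw [if_neg hy] at h
    exact absurd rfl h

/-- The local Iwahori predicate at the component is the adelic one. -/
theorem inIw_finGL_iff309 (v : HeightOneSpectrum (𝓞 K)) (z : G K) :
    InIw893 (finGL305 v z) ↔ T5.InIwahori v z := by
  have e : (((finGL305 v z)⁻¹ : GL (Fin 2) (v.adicCompletion K)) :
      Matrix (Fin 2) (Fin 2) (v.adicCompletion K)) = finComp v z⁻¹ := coe_finGL_inv756 v z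
  constructor
  · rintro ⟨h1, h2, h3⟩
    refine ⟨fun i j => ?_, fun i j => ?_, h3⟩
    · exact (HeightOneSpectrum.mem_adicCompletionIntegers _ _ _).2 (h1 i j)
    · have := h2 i j
      rw [e] at this
      exact (HeightOneSpectrum.mem_adicCompletionIntegers _ _ _).2 this
  · rintro ⟨h1, h2, h3⟩
    refine ⟨fun i j => ?_, fun i j => ?_, h3⟩
    · exact (HeightOneSpectrum.mem_adicCompletionIntegers _ _ _).1 (h1 i j)
    · rw [e]
      exact (HeightOneSpectrum.mem_adicCompletionIntegers _ _ _).1 (h2 i j)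

open Classical in
theorem iwFn_eq309 (v : HeightOneSpectrum (𝓞 K)) (z : G K) :
    iwFn893 (finGL305 v z) = if T5.InIwahori v z then (1 : ℂ) else 0 := by
  show (if InIw893 (finGL305 v z) then (1 : ℂ) else 0) = _
  by_cases h : T5.InIwahori v z
  · rw [if_pos h, if_pos ((inIw_finGL_iff309 v z).2 h)]
  · rw [if_neg h, if_neg (fun h' => h ((inIw_finGL_iff309 v z).1 h'))]

theorem inIwahori_mul_left_iff309 {v : HeightOneSpectrum (𝓞 K)} {h : G K}
    (hh : T5.InIwahori v h) (y : G K) : T5.InIwahori v (h * y) ↔ T5.InIwahori v y := by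
  constructor
  · intro h1
    have := H16.inIwahori_mul16 v (H16.inIwahori_inv16 v hh) h1
    rwa [inv_mul_cancel_left] at this
  · intro h1
    exact H16.inIwahori_mul16 v hh h1

theorem inIwahori_mul_right_iff309 {v : HeightOneSpectrum (𝓞 K)} {h : G K}
    (hh : T5.InIwahori v h) (y : G K) : T5.InIwahori v (y * h) ↔ T5.InIwahori v y := by
  constructor
  · intro h1
    have := H16.inIwahori_mul16 v h1 (H16.inIwahori_inv16 v hh)
    rwa [mul_inv_cancel_right] at this
  · intro h1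
    exact H16.inIwahori_mul16 v h1 hh

theorem iwFn_left309 {v : HeightOneSpectrum (𝓞 K)} {h : G K} (hh : T5.InIwahori v h)
    (y : G K) : iwFn893 (finGL305 v (h * y)) = iwFn893 (finGL305 v y) := by
  classical
  rw [iwFn_eq309, iwFn_eq309]
  exact if_congr (inIwahori_mul_left_iff309 hh y) rfl rfl

theorem iwFn_right309 {v : HeightOneSpectrum (𝓞 K)} {h : G K} (hh : T5.InIwahori v h)
    (y : G K) : iwFn893 (finGL305 v (y * h)) = iwFn893 (finGL305 v y) := by
  classical
  rw [iwFn_eq309, iwFn_eq309]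
  exact if_congr (inIwahori_mul_right_iff309 hh y) rfl rfl

end OneField


/-! ## 2. The members with the replaced components -/

section TwoFields

variable {K K' : Type} [Field K] [NumberField K] [Field K'] [NumberField K'] [Algebra K K']

/-- The elements of `H = I_u · U(𝔫)` (and more: any element which is trivial at infinity,
Iwahori at `u` and in `U(m v)` at the other places). -/
structure IsHElt309 (B : L2Base K K') (m : HeightOneSpectrum (𝓞 K) → ℕ) (h : G K) : Prop where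
  inf : ∀ w : InfinitePlace K, infGL305 w h = 1
  iw : T5.InIwahori B.u h
  out : ∀ v : HeightOneSpectrum (𝓞 K), v ≠ B.u → T6.InU (m v) (finGL305 v h)

open Classical in
/-- The hypotheses on the components downstairs. -/
structure IsDnShape309 (B : L2Base K K') (T₀ T : Finset (HeightOneSpectrum (𝓞 K)))
    (m : HeightOneSpectrum (𝓞 K) → ℕ)
    (b f₀ : ∀ v : HeightOneSpectrum (𝓞 K), GL (Fin 2) (v.adicCompletion K) → ℂ) : Prop where
  sub : T₀ ⊆ T
  u_mem : B.u ∈ T₀
  binv : ∀ v ∈ T₀.erase B.u, T6.IsBiInv (T6.InU (m v)) (b v)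
  sph : ∀ v ∈ T, v ∉ T₀ → ∃ Av : (ℤ × ℤ) →₀ ℂ, IsSphFn893 (f₀ v) Av

open Classical in
theorem repDn_eq309 (B : L2Base K K') (T₀ : Finset (HeightOneSpectrum (𝓞 K)))
    (b f₀ : ∀ v : HeightOneSpectrum (𝓞 K), GL (Fin 2) (v.adicCompletion K) → ℂ)
    (v : HeightOneSpectrum (𝓞 K)) :
    repDn970 B T₀ b f₀ v = if v = B.u then iwFn893 else if v ∈ T₀ then b v else f₀ v :=
  rfl

theorem repDn_u309 (B : L2Base K K') (T₀ : Finset (HeightOneSpectrum (𝓞 K)))
    (b f₀ : ∀ v : HeightOneSpectrum (𝓞 K), GL (Fin 2) (v.adicCompletion K) → ℂ) :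
    repDn970 B T₀ b f₀ B.u = iwFn893 := by
  classical
  rw [repDn_eq309, if_pos rfl]

theorem comp_left309 {B : L2Base K K'} {T₀ T : Finset (HeightOneSpectrum (𝓞 K))}
    {m : HeightOneSpectrum (𝓞 K) → ℕ}
    {b f₀ : ∀ v : HeightOneSpectrum (𝓞 K), GL (Fin 2) (v.adicCompletion K) → ℂ}
    (hS : IsDnShape309 B T₀ T m b f₀) {h : G K} (hh : IsHElt309 B m h) (y : G K) :
    ∀ v ∈ T, repDn970 B T₀ b f₀ v (finGL305 v (h * y))
      = repDn970 B T₀ b f₀ v (finGL305 v y) := by
  classical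
  intro v hv
  by_cases hu : v = B.u
  · subst hu
    rw [repDn_u309]
    exact iwFn_left309 hh.iw y
  · rw [repDn_eq309, if_neg hu]
    by_cases h0 : v ∈ T₀
    · rw [if_pos h0]
      have := (hS.binv v (Finset.mem_erase.2 ⟨hu, h0⟩)) (finGL305 v h) 1 (finGL305 v y)
        (hh.out v hu) (T6.H777.inU_one777 _)
      rw [mul_one, ← map_mul] at this
      exact this
    · rw [if_neg h0]
      obtain ⟨Av, -, hval⟩ := hS.sph v hv h0
      rw [hval, hval]
      have := H129.cartan_mul129 (g := finGL305 v y) (inU_zero_of_inU756 (hh.out v hu))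
        (T6.H777.inU_one777 0)
      rw [mul_one, ← map_mul] at this
      rw [this]

theorem comp_right309 {B : L2Base K K'} {T₀ T : Finset (HeightOneSpectrum (𝓞 K))}
    {m : HeightOneSpectrum (𝓞 K) → ℕ}
    {b f₀ : ∀ v : HeightOneSpectrum (𝓞 K), GL (Fin 2) (v.adicCompletion K) → ℂ}
    (hS : IsDnShape309 B T₀ T m b f₀) {h : G K} (hh : IsHElt309 B m h) (y : G K) :
    ∀ v ∈ T, repDn970 B T₀ b f₀ v (finGL305 v (y * h))
      = repDn970 B T₀ b f₀ v (finGL305 v y) := by
  classical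
  intro v hv
  by_cases hu : v = B.u
  · subst hu
    rw [repDn_u309]
    exact iwFn_right309 hh.iw y
  · rw [repDn_eq309, if_neg hu]
    by_cases h0 : v ∈ T₀
    · rw [if_pos h0]
      have := (hS.binv v (Finset.mem_erase.2 ⟨hu, h0⟩)) 1 (finGL305 v h) (finGL305 v y)
        (T6.H777.inU_one777 _) (hh.out v hu)
      rw [one_mul, ← map_mul] at this
      exact this
    · rw [if_neg h0]
      obtain ⟨Av, -, hval⟩ := hS.sph v hv h0
      rw [hval, hval]
      have := H129.cartan_mul129 (g := finGL305 v y) (T6.H777.inU_one777 0)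
        (inU_zero_of_inU756 (hh.out v hu))
      rw [one_mul, ← map_mul] at this
      rw [this]

/-- **The members are bi-invariant under `H`.** -/
theorem member_inv309 {B : L2Base K K'} {T₀ T : Finset (HeightOneSpectrum (𝓞 K))}
    {m : HeightOneSpectrum (𝓞 K) → ℕ}
    {b f₀ : ∀ v : HeightOneSpectrum (𝓞 K), GL (Fin 2) (v.adicCompletion K) → ℂ}
    (hS : IsDnShape309 B T₀ T m b f₀) (F : InfinitePlace K → GL (Fin 2) ℂ → ℂ) {h : G K}
    (hh : IsHElt309 B m h) (y : G K) :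
    pure305 T (repDn970 B T₀ b f₀) F (h * y) = pure305 T (repDn970 B T₀ b f₀) F y ∧
      pure305 T (repDn970 B T₀ b f₀) F (y * h) = pure305 T (repDn970 B T₀ b f₀) F y := by
  have hout : ∀ v : HeightOneSpectrum (𝓞 K), v ∉ T → T6.InU 0 (finGL305 v h) := by
    intro v hv
    have hu : v ≠ B.u := fun e => hv (e ▸ hS.sub hS.u_mem)
    exact inU_zero_of_inU756 (hh.out v hu)
  exact ⟨pure_left309 hh.inf hout y (comp_left309 hS hh y),
    pure_right309 hh.inf hout y (comp_right309 hS hh y)⟩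

/-- **The members vanish outside the Iwahori subgroup at `u`.** -/
theorem member_iw309 {B : L2Base K K'} {T₀ T : Finset (HeightOneSpectrum (𝓞 K))}
    {m : HeightOneSpectrum (𝓞 K) → ℕ}
    {b f₀ : ∀ v : HeightOneSpectrum (𝓞 K), GL (Fin 2) (v.adicCompletion K) → ℂ}
    (hS : IsDnShape309 B T₀ T m b f₀) (F : InfinitePlace K → GL (Fin 2) ℂ → ℂ) {y : G K}
    (hy : ¬ T5.InIwahori B.u y) : pure305 T (repDn970 B T₀ b f₀) F y = 0 := by
  classical
  by_contra h0
  have h1 := pure_ne_zero309 h0 B.u (hS.sub hS.u_mem)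
  rw [repDn_u309, iwFn_eq309, if_neg hy] at h1
  exact h1 rfl

theorem isHElt_of_iw309 (B : L2Base K K') (m : HeightOneSpectrum (𝓞 K) → ℕ) {h : G K}
    (h1 : ∀ w : InfinitePlace K, TrivAtInf w h)
    (h2 : ∀ v : HeightOneSpectrum (𝓞 K), v ≠ B.u → TrivAtFin v h)
    (h3 : T5.InIwahori B.u h) : IsHElt309 B m h where
  inf := fun w => (trivAtInf_iff_infGL756 w h).1 (h1 w)
  iw := h3
  out := fun v hv => by
    rw [(trivAtFin_iff_finGL756 v h).1 (h2 v hv)]
    exact T6.H777.inU_one777 _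

end TwoFields


/-! ## 3. The function `W = wsum970 s β (F₁ [])` -/

section W

variable {K K' : Type} [Field K] [NumberField K] [Field K'] [NumberField K'] [Algebra K K']
variable {ℓ : ℕ} {Φ : HeckeEigensystem K' ℂ} {B : L2Base K K'} {𝔫 : Ideal (𝓞 K)}
  {μc : @Measure (GL (Fin 2) ℂ) (borel _)} {T₀ : Finset (HeightOneSpectrum (𝓞 K))}
  {n n₀ : HeightOneSpectrum (𝓞 K') → ℕ} {m : HeightOneSpectrum (𝓞 K) → ℕ}
  {a : (InfinitePlace K → ℝ) → G K} {D : Set (InfinitePlace K → ℝ)}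
  {a' : (InfinitePlace K' → ℝ) → G K'} {D' : Set (InfinitePlace K' → ℝ)}
  {s : Finset (G K)} {β : G K → ℂ}
  {b : ∀ v : HeightOneSpectrum (𝓞 K), GL (Fin 2) (v.adicCompletion K) → ℂ}
  {c₁ : EigData K' → ℂ} {Φ₁ : List (Gen K') → G K' → ℂ} {F₁ : List (Gen K') → G K → ℂ}

theorem isHElt_of_level309 (hyp : IsDn2Hyp309 ℓ Φ B 𝔫 μc T₀ n n₀ m a D a' D' s β b c₁ Φ₁ F₁)
    {h : G K} (hh : InLevelGroup 𝔫 h) : IsHElt309 B m h where
  inf := ((inLevelGroup_iff_inU756 hyp.exp.lvl h).1 hh).1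
  iw := H49.inIwahori_of_inLevelGroup49 hyp.lvl.u_level hh
  out := fun v _ => ((inLevelGroup_iff_inU756 hyp.exp.lvl h).1 hh).2 v

/-- **`W` is an average of pure tensors with the replaced components.** -/
theorem wsum_avg309 (hyp : IsDn2Hyp309 ℓ Φ B 𝔫 μc T₀ n n₀ m a D a' D' s β b c₁ Φ₁ F₁) :
    ∃ (Ω : Type) (_ : MeasurableSpace Ω) (ν : Measure Ω)
      (T : Ω → Finset (HeightOneSpectrum (𝓞 K)))
      (f₀ : Ω → ∀ v : HeightOneSpectrum (𝓞 K), GL (Fin 2) (v.adicCompletion K) → ℂ)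
      (F : Ω → InfinitePlace K → GL (Fin 2) ℂ → ℂ),
      (∀ ω, IsDnShape309 B T₀ (T ω) m b (f₀ ω)) ∧
      ∀ y : G K, wsum970 s β (F₁ []) y
        = ∫ ω, pure305 (T ω) (repDn970 B T₀ b (f₀ ω)) (F ω) y ∂ν := by
  obtain ⟨Ω, iT, iC, iT2, iSC, iM, iB, ν, iF, T, T', φ₀, Φ', f₀, F, h1, h2, h3, h4, h5, h6, h7,
    h8, h9⟩ := hyp.shape
  refine ⟨Ω, iM, ν, T, f₀, F, fun ω => ?_, fun y => ?_⟩
  · obtain ⟨hsub, -, hA1, -, hA3, -⟩ := h1 ω
    exact ⟨hsub, (hyp.exp.mem B.u).2 hyp.lvl.u_level, fun v hv => (hyp.binv v hv).1,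
      fun v hv hv0 => by
        obtain ⟨A, Av, hs, -⟩ := hA3 v hv hv0
        exact ⟨Av, hs⟩⟩
  · simp only [one_mul] at h5 h9
    have hint : ∀ z : G K, Integrable (fun ω => pure305 (T ω) (f₀ ω) (F ω) z) ν := by
      intro z
      have hc : Continuous fun ω : Ω => pure305 (T ω) (f₀ ω) (F ω) z :=
        h5.comp (Continuous.prodMk continuous_id continuous_const)
      exact hc.integrable_of_hasCompactSupport (HasCompactSupport.of_compactSpace _)
    show ∑ x ∈ s, β x * F₁ [] (x⁻¹ * y) = _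
    have e1 : ∀ x ∈ s, β x * F₁ [] (x⁻¹ * y)
        = ∫ ω, β x * pure305 (T ω) (f₀ ω) (F ω) (x⁻¹ * y) ∂ν := by
      intro x _
      rw [h9, integral_const_mul]
    rw [Finset.sum_congr rfl e1,
      ← integral_finsetSum s (fun x _ => (hint _).const_mul (β x))]
    refine integral_congr_ae (Filter.Eventually.of_forall fun ω => ?_)
    obtain ⟨hsub, -, hA1, -⟩ := h1 ω
    exact hyp.wt.rep (T ω) (f₀ ω) (F ω) hsub hA1 y

/-- **`W` is bi-invariant under `H`.** -/
theorem wsum_inv309 (hyp : IsDn2Hyp309 ℓ Φ B 𝔫 μc T₀ n n₀ m a D a' D' s β b c₁ Φ₁ F₁)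
    {h : G K} (hh : IsHElt309 B m h) (y : G K) :
    wsum970 s β (F₁ []) (h * y) = wsum970 s β (F₁ []) y ∧
      wsum970 s β (F₁ []) (y * h) = wsum970 s β (F₁ []) y := by
  obtain ⟨Ω, iM, ν, T, f₀, F, hS, hW⟩ := wsum_avg309 hyp
  rw [hW, hW, hW]
  exact ⟨integral_congr_ae (Filter.Eventually.of_forall fun ω =>
      (member_inv309 (hS ω) (F ω) hh y).1),
    integral_congr_ae (Filter.Eventually.of_forall fun ω =>
      (member_inv309 (hS ω) (F ω) hh y).2)⟩

/-- **`W` vanishes outside the Iwahori subgroup at `u`.** -/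
theorem wsum_iw309 (hyp : IsDn2Hyp309 ℓ Φ B 𝔫 μc T₀ n n₀ m a D a' D' s β b c₁ Φ₁ F₁)
    {y : G K} (hy : wsum970 s β (F₁ []) y ≠ 0) : T5.InIwahori B.u y := by
  obtain ⟨Ω, iM, ν, T, f₀, F, hS, hW⟩ := wsum_avg309 hyp
  by_contra hn
  apply hy
  rw [hW]
  have : (fun ω => pure305 (T ω) (repDn970 B T₀ b (f₀ ω)) (F ω) y) = fun _ => (0 : ℂ) :=
    funext fun ω => member_iw309 (hS ω) (F ω) hn
  rw [this, integral_zero]

/-- **`W` has the termwise properties** (`H311.IsPre311`). -/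
theorem wsum_pre309 (hyp : IsDn2Hyp309 ℓ Φ B 𝔫 μc T₀ n n₀ m a D a' D' s β b c₁ Φ₁ F₁) :
    H311.IsPre311 𝔫 B.R.μ (wsum970 s β (F₁ [])) := by
  have hF : T5.IsFrame B.R.μ B.R.F := hyp.base.frame.frame
  have hX : ∀ x ∈ ([] : List (Gen K')), x.Out B.S' := fun x hx => absurd hx (List.not_mem_nil)
  have hpre : H311.IsPre311 𝔫 B.R.μ (F₁ []) :=
    H311.isPre_of_test311 (hyp.pair.dn1_test [] hX) (hyp.pair.dn1_ek [] hX).1
      (hyp.pair.dn1_ek [] hX).2
  exact H311.isPre_sum311 hF s (fun x y => β x * H893.ltr x (F₁ []) y)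
    (fun x hx => (hpre.ltr hF (hyp.wt.supp x hx).1).smul (β x))

/-- **`W` is a test function of level `𝔫`.** -/
theorem wsum_test309 (hyp : IsDn2Hyp309 ℓ Φ B 𝔫 μc T₀ n n₀ m a D a' D' s β b c₁ Φ₁ F₁) :
    T5.IsTestFn 𝔫 T5.trivType (wsum970 s β (F₁ [])) := by
  have hpre := wsum_pre309 hyp
  refine ⟨T5.isKType_triv, hpre.cont, hpre.supp, hpre.smooth, hpre.level_right,
    fun u hu g => (wsum_inv309 hyp (isHElt_of_level309 hyp hu) g).1, fun w k hk g => ?_,
    fun w k hk g => ?_⟩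
  · show _ = (1 : ℂ)⁻¹ * _
    rw [inv_one, one_mul]
    exact hpre.arch_right w k hk g
  · show _ = (1 : ℂ)⁻¹ * _
    rw [inv_one, one_mul]
    exact hpre.arch_left w k hk g

/-- **`W` is bi-invariant under `U(𝔫)` and the Iwahori subgroup at `u`.** -/
theorem wsum_uinv309 (hyp : IsDn2Hyp309 ℓ Φ B 𝔫 μc T₀ n n₀ m a D a' D' s β b c₁ Φ₁ F₁) :
    IsUInv 𝔫 1 (fun _ => B.u) (wsum970 s β (F₁ [])) := by
  refine ⟨fun u hu y => wsum_inv309 hyp (isHElt_of_level309 hyp hu) y,
    fun h h1 h2 h3 y => wsum_inv309 hyp (isHElt_of_iw309 B m h1 (fun v hv => ?_) ?_) y⟩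
  · exact h2 v (fun j _ => hv)
  · exact h3 0 Nat.one_pos

end W

end Fermat.Agent.LT.T7.H309.Dn2

end
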