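import Mathlib
import Fermat.Agent.LT.T7.H309.Dn2W
import Fermat.Agent.LT.T7.H193.NatTools
import Fermat.Agent.LT.T1.Closed

/-!
# Row LT, tower T7, leaf T7.L2.1.H2a.4.5.A `Dn2NatC309` (helper309, registry 3029)

OFF-MAIN.  PROVED, nothing assumed: `dn2NatC309 K K' : Dn2NatC309 K K'` VERBATIM (fields
`dn2_test`, `dn2_ek`, `dn2_inv`, `dn2_kill` of `B970.IsDn2_970` for
`f₂ = c · nat193 a D (wsum970 s β (F₁ []))`).

`W = wsum970 s β (F₁ [])` is an Eisenstein-killing test function of level `𝔫` with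
Eisenstein-killing adjoint, bi-invariant under `U(𝔫)` and the Iwahori subgroup at `u`
(`Dn2W.lean`); `H193.killing_of_torus193` for the torus data `hrel.down` (`T1.T1Out` from the
closed tower T1); multiples by `c`.  Also `nat_facts309` (the six clauses of the killing tool
for `W`, among them `R(nat193 a D W) e = R(W) e` on the continuous functions invariant under the
positive scalars) for the other leaves.
-/

set_option autoImplicit false
set_option linter.unusedSectionVars false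

open AutomorphicForm IsDedekindDomain NumberField MeasureTheory
open scoped ComplexConjugate

noncomputable section

namespace Fermat.Agent.LT.T7.H309.Dn2

open Fermat.Agent.LT.H556 Fermat.Agent.LT.H556.A0 Fermat.Agent.LT.T7
open Fermat.Agent.LT.T7.H305 Fermat.Agent.LT.T7.H893 Fermat.Agent.LT.T7.B981
open Fermat.Agent.LT.T7.B970 Fermat.Agent.LT

attribute [local instance] Fermat.Agent.LT.T5.instMeasurableSpaceG

section

variable {K K' : Type} [Field K] [NumberField K] [Field K'] [NumberField K'] [Algebra K K']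
variable {ℓ : ℕ} {Φ : HeckeEigensystem K' ℂ} {B : L2Base K K'} {𝔫 : Ideal (𝓞 K)}
  {μc : @Measure (GL (Fin 2) ℂ) (borel _)} {T₀ : Finset (HeightOneSpectrum (𝓞 K))}
  {n n₀ : HeightOneSpectrum (𝓞 K') → ℕ} {m : HeightOneSpectrum (𝓞 K) → ℕ}
  {a : (InfinitePlace K → ℝ) → G K} {D : Set (InfinitePlace K → ℝ)}
  {a' : (InfinitePlace K' → ℝ) → G K'} {D' : Set (InfinitePlace K' → ℝ)}
  {s : Finset (G K)} {β : G K → ℂ}
  {b : ∀ v : HeightOneSpectrum (𝓞 K), GL (Fin 2) (v.adicCompletion K) → ℂ}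
  {c₁ : EigData K' → ℂ} {Φ₁ : List (Gen K') → G K' → ℂ} {F₁ : List (Gen K') → G K → ℂ}

/-- **The killing tool for `W`.** -/
theorem nat_facts309 (hyp : IsDn2Hyp309 ℓ Φ B 𝔫 μc T₀ n n₀ m a D a' D' s β b c₁ Φ₁ F₁) :
    T5.IsTestFn 𝔫 T5.trivType (H193.nat193 a D (wsum970 s β (F₁ []))) ∧
      T5.IsEK B.R.μ (H193.nat193 a D (wsum970 s β (F₁ []))) ∧
      T5.IsEK B.R.μ (T5.adjointFn (H193.nat193 a D (wsum970 s β (F₁ [])))) ∧
      IsUInv 𝔫 1 (fun _ => B.u) (H193.nat193 a D (wsum970 s β (F₁ []))) ∧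
      (∀ e : G K → ℂ, Continuous e →
        (∀ (w : InfinitePlace K) (z : G K), IsArchPosScalar w z →
          ∀ g : G K, e (g * z) = e g) →
        ∀ x : G K, T5.Rconv B.R.μ (H193.nat193 a D (wsum970 s β (F₁ []))) e x
          = T5.Rconv B.R.μ (wsum970 s β (F₁ [])) e x) ∧
      ∀ ψ : G K → ℂ, T5.IsCuspFn 𝔫 T5.trivType B.R.r ψ →
        (∀ χ : G K → ℂ, IsWFn 𝔫 B.R.r 1 (fun _ => B.u) χ → T5.innerD B.R.μ B.R.F ψ χ = 0) →
        ∀ x : G K, T5.Rconv B.R.μ (H193.nat193 a D (wsum970 s β (F₁ []))) ψ x = 0 :=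
  H193.killing_of_torus193 (T1.t1Out K) B.R hyp.base.frame 𝔫 𝔫 hyp.lvl.level_ne le_rfl 1
    (fun _ => B.u) hyp.rel.down (wsum970 s β (F₁ [])) (wsum_test309 hyp) (wsum_pre309 hyp).ek
    (wsum_pre309 hyp).ek_adj (wsum_uinv309 hyp)

end

/-- **LEAF D2.A `Dn2NatC309`.** -/
theorem dn2NatC309 (K K' : Type) [Field K] [NumberField K] [Field K'] [NumberField K']
    [Algebra K K'] : Dn2NatC309 K K' := by
  intro ℓ Φ B 𝔫 μc T₀ n n₀ m a D a' D' s β b c₁ Φ₁ F₁ hyp c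
  obtain ⟨ht, hek, hadj, hbi, -, hkill⟩ := nat_facts309 hyp
  have hpre := (H311.isPre_of_test311 ht hek hadj).smul c
  refine ⟨⟨T5.isKType_triv, hpre.cont, hpre.supp, hpre.smooth, hpre.level_right,
    fun u hu g => ?_, fun w k hk g => ?_, fun w k hk g => ?_⟩, ⟨hpre.ek, hpre.ek_adj⟩,
    ⟨fun u hu y => ⟨?_, ?_⟩, fun h h1 h2 h3 y => ⟨?_, ?_⟩⟩, fun ψ hψ horth x => ?_⟩
  · show c * _ = c * _
    rw [(hbi.1 u hu g).1]
  · show _ = (1 : ℂ)⁻¹ * _
    rw [inv_one, one_mul]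
    exact hpre.arch_right w k hk g
  · show _ = (1 : ℂ)⁻¹ * _
    rw [inv_one, one_mul]
    exact hpre.arch_left w k hk g
  · show c * _ = c * _
    rw [(hbi.1 u hu y).1]
  · show c * _ = c * _
    rw [(hbi.1 u hu y).2]
  · show c * _ = c * _
    rw [(hbi.2 h h1 h2 h3 y).1]
  · show c * _ = c * _
    rw [(hbi.2 h h1 h2 h3 y).2]
  · have h0 : ∫ y, H193.nat193 a D (wsum970 s β (F₁ [])) y * ψ (x * y) ∂B.R.μ = 0 :=
      hkill ψ hψ horth x
    show ∫ y, c * H193.nat193 a D (wsum970 s β (F₁ [])) y * ψ (x * y) ∂B.R.μ = 0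
    simp only [mul_assoc]
    rw [integral_const_mul, h0, mul_zero]

end Fermat.Agent.LT.T7.H309.Dn2

end
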