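import Mathlib
import Fermat.Agent.LT.T7.H309.Dn2Spec

/-!
# Row LT, tower T7, leaf T7.L2.1.H2a.4.5 `Dn2C970` (helper309, registry 2866): CUT BY FIELDS -- Top

OFF-MAIN.  PROVED, nothing assumed: the five leaves of `Dn2Spec.lean` give `B970.Dn2C970`
VERBATIM.
-/

set_option autoImplicit false

open AutomorphicForm IsDedekindDomain NumberField MeasureTheory
open scoped ComplexConjugate

noncomputable section

namespace Fermat.Agent.LT.T7.H309.Dn2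

open Fermat.Agent.LT.H556 Fermat.Agent.LT.H556.A0 Fermat.Agent.LT.T7
open Fermat.Agent.LT.T7.H305 Fermat.Agent.LT.T7.H893 Fermat.Agent.LT.T7.B981
open Fermat.Agent.LT.T7.B970

attribute [local instance] Fermat.Agent.LT.T5.instMeasurableSpaceG

variable {K K' : Type} [Field K] [NumberField K] [Field K'] [NumberField K'] [Algebra K K']

/-- **THE TOP OF THE CUT BY FIELDS.** -/
theorem dn2C_of309 (hA : Dn2NatC309 K K') (hB : Dn2WfnC309 K K') (hC : Dn2ClassC309 K K')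
    (hD : Dn2CommC309 K K') (hE : Dn2SuppC309 K K') : B970.Dn2C970 K K' := by
  intro ℓ hcyc hℓ htot Φ hcusp hfib B hB0 hram 𝔫 hlvl μc hμc T₀ n n₀ m hexp a D a' D' hrel
    s β b hb hwt c₁ Φ₁ F₁ hpair hshape c
  have hyp : IsDn2Hyp309 ℓ Φ B 𝔫 μc T₀ n n₀ m a D a' D' s β b c₁ Φ₁ F₁ :=
    ⟨hcyc, hℓ, htot, hcusp, hfib, hB0, hram, hlvl, hμc, hexp, hrel, hb, hwt, hpair, hshape⟩
  obtain ⟨h1, h2, h3, h7⟩ :=
    hA ℓ Φ B 𝔫 μc T₀ n n₀ m a D a' D' s β b c₁ Φ₁ F₁ hyp c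
  have h4 := hB ℓ Φ B 𝔫 μc T₀ n n₀ m a D a' D' s β b c₁ Φ₁ F₁ hyp c
  have h5 := hC ℓ Φ B 𝔫 μc T₀ n n₀ m a D a' D' s β b c₁ Φ₁ F₁ hyp c
  have h6 := hD ℓ Φ B 𝔫 μc T₀ n n₀ m a D a' D' s β b c₁ Φ₁ F₁ hyp c
  have h8 := hE ℓ Φ B 𝔫 μc T₀ n n₀ m a D a' D' s β b c₁ Φ₁ F₁ hyp c
  exact
    { dn2_test := h1
      dn2_ek := h2
      dn2_inv := h3
      dn2_wfn := h4
      dn2_class := fun ψ e he =>
        ⟨h4 ψ he.inv, (h5 ψ e he).1, (h5 ψ e he).2⟩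
      dn2_comm := h6
      dn2_kill := h7
      dn2_supp := h8 }

end Fermat.Agent.LT.T7.H309.Dn2

end
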