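import Mathlib
import Fermat.Agent.LT.T7.H309.Dn2Nat
import Fermat.Agent.LT.T7.H553.Dn2Class

/-!
# Row LT, tower T7, leaf T7.L2.1.H2a.4.5.B `Dn2WfnC309` (helper309, spare of registry 3030)

OFF-MAIN.  PROVED, nothing assumed: `dn2WfnC309 K K' : Dn2WfnC309 K K'` VERBATIM (field
`dn2_wfn` of `B970.IsDn2_970` for `f₂ = c · nat193 a D (wsum970 s β (F₁ []))`).

`R(f₂) ψ = c ∑_{x ∈ s} β(x) (R(F₁ []) ψ)(· x)` (`rconv_f2_309`: `nat_facts309`, clause 5, and
`H553.Rconv_wsumDC553` of helper553); `E = R(F₁ []) ψ` is an invariant cusp function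
(`dn1_wfn`); the right translates by elements trivial at infinity keep the continuity, the
bounds, the left invariance under `GL₂(K)`, the cuspidality (helper886 `CuspAlg`), the invariance
under the ray, the compact groups and the positive scalars at infinity; the right invariance of
`R(f₂) ψ` under `U(𝔫)` and the Iwahori subgroup at `u` comes from the LEFT invariance of `f₂`
(`dn2NatC309`, clause `dn2_inv`) and the left invariance of the Haar measure
(`rconv_right_inv309`).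
-/

set_option autoImplicit false
set_option linter.unusedSectionVars false

open AutomorphicForm IsDedekindDomain NumberField MeasureTheory
open scoped ComplexConjugate

noncomputable section

namespace Fermat.Agent.LT.T7.H309.Dn2

open Fermat.Agent.LT.H556 Fermat.Agent.LT.H556.A0 Fermat.Agent.LT.T7
open Fermat.Agent.LT.T7.H305 Fermat.Agent.LT.T7.H893 Fermat.Agent.LT.T7.B981
open Fermat.Agent.LT.T7.B970 Fermat.Agent.LT

attribute [local instance] Fermat.Agent.LT.T5.instMeasurableSpaceG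

section OneField

variable {K : Type} [Field K] [NumberField K]

/-- `R(f) ψ` is right invariant under `h` if `f` is left invariant under `h`. -/
theorem rconv_right_inv309 {μ : Measure (G K)} (hμ : μ.IsHaarMeasure) {f ψ : G K → ℂ}
    {h : G K} (hf : ∀ y : G K, f (h * y) = f y) (g : G K) :
    T5.Rconv μ f ψ (g * h) = T5.Rconv μ f ψ g := by
  have : BorelSpace (G K) := ⟨rfl⟩
  have h1 := integral_mul_left_eq_self (μ := μ) (fun y => f y * ψ (g * y)) h
  show ∫ y, f y * ψ (g * h * y) ∂μ = ∫ y, f y * ψ (g * y) ∂μ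
  rw [← h1]
  refine integral_congr_ae (Filter.Eventually.of_forall fun y => ?_)
  show f y * ψ (g * h * y) = f (h * y) * ψ (g * (h * y))
  rw [hf, mul_assoc]

/-- The weighted sum of right translates of a continuous bounded cuspidal function is
cuspidal. -/
theorem cuspidal_wsum309 {E : G K → ℂ} (hc : Continuous E) {C : ℝ}
    (hb : ∀ g : G K, ‖E g‖ ≤ C) (hE : IsCuspidalFn E) (β : G K → ℂ) (s : Finset (G K)) :
    IsCuspidalFn (fun g : G K => ∑ x ∈ s, β x * E (g * x)) ∧
      Continuous (fun g : G K => ∑ x ∈ s, β x * E (g * x)) ∧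
      ∃ C' : ℝ, ∀ g : G K, ‖∑ x ∈ s, β x * E (g * x)‖ ≤ C' := by
  classical
  induction s using Finset.induction_on with
  | empty =>
    refine ⟨?_, ?_, 0, fun g => ?_⟩
    · show IsCuspidalFn (fun _ : G K => (0 : ℂ))
      exact T2.H886.isCuspidalFn_zero886
    · show Continuous (fun _ : G K => (0 : ℂ))
      exact continuous_const
    · rw [Finset.sum_empty, norm_zero]
  | insert a s ha ih =>
    obtain ⟨h1, h2, C', h3⟩ := ih
    have e : (fun g : G K => ∑ x ∈ insert a s, β x * E (g * x))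
        = fun g : G K => β a * E (g * a) + ∑ x ∈ s, β x * E (g * x) := by
      funext g
      rw [Finset.sum_insert ha]
    rw [e]
    have ca : Continuous fun g : G K => β a * E (g * a) :=
      continuous_const.mul (hc.comp (continuous_id.mul continuous_const))
    have ba : ∀ g : G K, ‖β a * E (g * a)‖ ≤ ‖β a‖ * C := fun g => by
      rw [norm_mul]
      exact mul_le_mul_of_nonneg_left (hb _) (norm_nonneg _)
    refine ⟨T2.H886.isCuspidalFn_add886 (φ := fun g => β a * E (g * a))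
      (ψ := fun g => ∑ x ∈ s, β x * E (g * x)) ca ba h2 h3
      (T2.H886.isCuspidalFn_const_mul886 (β a) (T2.H886.isCuspidalFn_shift886 a hE)) h1,
      ca.add h2, ‖β a‖ * C + C', fun g => ?_⟩
    rw [Finset.sum_insert ha]
    exact (norm_add_le _ _).trans (add_le_add (ba g) (h3 g))

end OneField

section Main

variable {K K' : Type} [Field K] [NumberField K] [Field K'] [NumberField K'] [Algebra K K']
variable {ℓ : ℕ} {Φ : HeckeEigensystem K' ℂ} {B : L2Base K K'} {𝔫 : Ideal (𝓞 K)}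
  {μc : @Measure (GL (Fin 2) ℂ) (borel _)} {T₀ : Finset (HeightOneSpectrum (𝓞 K))}
  {n n₀ : HeightOneSpectrum (𝓞 K') → ℕ} {m : HeightOneSpectrum (𝓞 K) → ℕ}
  {a : (InfinitePlace K → ℝ) → G K} {D : Set (InfinitePlace K → ℝ)}
  {a' : (InfinitePlace K' → ℝ) → G K'} {D' : Set (InfinitePlace K' → ℝ)}
  {s : Finset (G K)} {β : G K → ℂ}
  {b : ∀ v : HeightOneSpectrum (𝓞 K), GL (Fin 2) (v.adicCompletion K) → ℂ}
  {c₁ : EigData K' → ℂ} {Φ₁ : List (Gen K') → G K' → ℂ} {F₁ : List (Gen K') → G K → ℂ}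

/-- **The operator of `f₂`** on the continuous functions invariant under the positive scalars
at infinity. -/
theorem rconv_f2_309 (hyp : IsDn2Hyp309 ℓ Φ B 𝔫 μc T₀ n n₀ m a D a' D' s β b c₁ Φ₁ F₁)
    (c : ℂ) {ψ : G K → ℂ} (hψc : Continuous ψ)
    (hψs : ∀ (w : InfinitePlace K) (z : G K), IsArchPosScalar w z →
      ∀ g : G K, ψ (g * z) = ψ g) (g : G K) :
    T5.Rconv B.R.μ (fun h => c * H193.nat193 a D (wsum970 s β (F₁ [])) h) ψ g
      = c * ∑ x ∈ s, β x * T5.Rconv B.R.μ (F₁ []) ψ (g * x) := by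
  have hFt : T5.IsTestFn 𝔫 T5.trivType (F₁ []) :=
    hyp.pair.dn1_test [] (fun x hx => absurd hx (List.not_mem_nil))
  have h1 : T5.Rconv B.R.μ (fun h => c * H193.nat193 a D (wsum970 s β (F₁ [])) h) ψ g
      = c * T5.Rconv B.R.μ (H193.nat193 a D (wsum970 s β (F₁ []))) ψ g := by
    show ∫ y, c * H193.nat193 a D (wsum970 s β (F₁ [])) y * ψ (g * y) ∂B.R.μ
      = c * ∫ y, H193.nat193 a D (wsum970 s β (F₁ [])) y * ψ (g * y) ∂B.R.μ
    rw [← integral_const_mul]
    refine integral_congr_ae (Filter.Eventually.of_forall fun y => ?_)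
    show c * H193.nat193 a D (wsum970 s β (F₁ [])) y * ψ (g * y)
      = c * (H193.nat193 a D (wsum970 s β (F₁ [])) y * ψ (g * y))
    rw [mul_assoc]
  rw [h1, (nat_facts309 hyp).2.2.2.2.1 ψ hψc hψs g,
    H553.Rconv_wsumDC553 hyp.base.frame.frame s β hFt.cont hFt.supp hψc g]
  rfl

end Main

/-- **LEAF D2.B `Dn2WfnC309`.** -/
theorem dn2WfnC309 (K K' : Type) [Field K] [NumberField K] [Field K'] [NumberField K']
    [Algebra K K'] : Dn2WfnC309 K K' := by
  intro ℓ Φ B 𝔫 μc T₀ n n₀ m a D a' D' s β b c₁ Φ₁ F₁ hyp c ψ hψ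
  have hE := hyp.pair.dn1_wfn ψ hψ
  obtain ⟨C, hC⟩ := hE.cusp.bdd
  obtain ⟨-, -, hinv, -⟩ := dn2NatC309 K K' ℓ Φ B 𝔫 μc T₀ n n₀ m a D a' D' s β b c₁ Φ₁ F₁ hyp c
  have hμ : B.R.μ.IsHaarMeasure := hyp.base.frame.frame.haar
  have hr : T5.IsRayGen B.R.r := hyp.base.frame.ray
  have hx : ∀ x ∈ s, ∀ w : InfinitePlace K, TrivAtInf w x := fun x hx => (hyp.wt.supp x hx).1
  have hΘ : ∀ g : G K,
      T5.Rconv B.R.μ (fun h => c * H193.nat193 a D (wsum970 s β (F₁ [])) h) ψ g
        = c * ∑ x ∈ s, β x * T5.Rconv B.R.μ (F₁ []) ψ (g * x) :=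
    fun g => rconv_f2_309 hyp c hψ.cusp.cont hψ.arch_scalar g
  have key : T5.Rconv B.R.μ (fun h => c * H193.nat193 a D (wsum970 s β (F₁ [])) h) ψ
      = fun g => c * ∑ x ∈ s, β x * T5.Rconv B.R.μ (F₁ []) ψ (g * x) := funext hΘ
  obtain ⟨hcu, hco, C', hbd⟩ := cuspidal_wsum309 hE.cusp.cont hC hE.cusp.cuspidal β s
  refine ⟨⟨?_, ?_, ⟨?_, ?_, ?_, ?_⟩, ?_⟩, ?_, ?_⟩
  · rw [key]
    exact continuous_const.mul hco
  · refine ⟨‖c‖ * C', fun g => ?_⟩
    rw [hΘ g, norm_mul]
    exact mul_le_mul_of_nonneg_left (hbd g) (norm_nonneg c)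
  · intro γ g
    rw [hΘ (T5.ratG γ * g), hΘ g]
    refine congrArg (fun t => c * t) (Finset.sum_congr rfl fun x _ => ?_)
    rw [mul_assoc, hE.cusp.aut.left_inv γ (g * x)]
  · intro u hu g
    exact rconv_right_inv309 hμ (fun y => (hinv.1 u hu y).1) g
  · intro w k hk g
    have e1 : T5.trivType k = 1 := rfl
    rw [hΘ (g * k), hΘ g, e1, one_mul]
    refine congrArg (fun t => c * t) (Finset.sum_congr rfl fun x hxs => ?_)
    rw [mul_assoc, ← H311.commute_fin_inf311 (hx x hxs) hk.1.2, ← mul_assoc,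
      hE.cusp.aut.arch_compact w k hk (g * x), e1, one_mul]
  · intro g
    rw [hΘ (g * B.R.r), hΘ g]
    refine congrArg (fun t => c * t) (Finset.sum_congr rfl fun x hxs => ?_)
    rw [mul_assoc, ← H311.commute_fin_inf311 (hx x hxs) hr.1, ← mul_assoc,
      hE.cusp.aut.ray (g * x)]
  · rw [key]
    exact T2.H886.isCuspidalFn_const_mul886 c hcu
  · intro w z hz g
    rw [hΘ (g * z), hΘ g]
    refine congrArg (fun t => c * t) (Finset.sum_congr rfl fun x hxs => ?_)
    rw [mul_assoc, ← H311.commute_fin_inf311 (hx x hxs) hz.1.2, ← mul_assoc,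
      hE.arch_scalar w z hz (g * x)]
  · intro h h1 h2 h3 g
    exact rconv_right_inv309 hμ (fun y => (hinv.2 h h1 h2 h3 y).1) g

end Fermat.Agent.LT.T7.H309.Dn2

end
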