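import Mathlib
import Fermat.Agent.LT.T7.H309.Dn2Top
import Fermat.Agent.LT.T7.H309.Dn2Nat
import Fermat.Agent.LT.T7.H309.Dn2Wfn
import Fermat.Agent.LT.T7.H553.Dn2Class
import Fermat.Agent.LT.T7.H661.Dn2Comm
import Fermat.Agent.LT.T7.H547.Dn2Supp

/-!
# Row LT, tower T7, leaf T7.L2.1.H2a.4.5 `Dn2C970` (helper309, registry 2866): CLOSED

OFF-MAIN.  `dn2C_closed309 K K' : B970.Dn2C970 K K'` VERBATIM, UNCONDITIONAL, for every
extension of number fields: the top `dn2C_of309` of the cut by fields with the five leaves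

* `Dn2NatC309`   : `dn2NatC309` (helper309, `Dn2Nat.lean`, core `Dn2W.lean`),
* `Dn2WfnC309`   : `dn2WfnC309` (helper309, `Dn2Wfn.lean`),
* `Dn2ClassC309` : `H553.dn2ClassC553` (helper553),
* `Dn2CommC309`  : `H661.dn2Comm661` (helper661, conditional on `Dn2NatC309`, `Dn2SuppC309`),
* `Dn2SuppC309`  : `H547.dn2SuppC547` (helper547),

byte-identical copies of the files of the owners.
-/

set_option autoImplicit false

noncomputable section

namespace Fermat.Agent.LT.T7.H309.Dn2

open Fermat.Agent.LT.T7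

/-- **LEAF T7.L2.1.H2a.4.5 `Dn2C970`, CLOSED.** -/
theorem dn2C_closed309 (K K' : Type) [Field K] [NumberField K] [Field K'] [NumberField K']
    [Algebra K K'] : B970.Dn2C970 K K' :=
  dn2C_of309 (dn2NatC309 K K') (dn2WfnC309 K K') (H553.dn2ClassC553 K K')
    (H661.dn2Comm661 K K' (dn2NatC309 K K') (H547.dn2SuppC547 K K')) (H547.dn2SuppC547 K K')

end Fermat.Agent.LT.T7.H309.Dn2

end
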