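import Mathlib

/-!
# Row LT, tower T7, leaf T7.C4 (helper309): the abstract separation of atoms

OFF-MAIN.  Mathlib only.

`X` a compact Hausdorff space (no countability assumption), two families of atoms `p i`, `p' j`
in `X` with absolutely summable complex weights `x i`, `y j`.  If the two atomic measures have
the same integral against every function of a point-separating star-subalgebra of `C(X, ℂ)`,
then they have the same mass at every point (`atoms_sep309`).

Proof: Stone--Weierstrass (the integrals agree on all of `C(X, ℂ)`), then a point is isolated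
from finitely many others by Urysohn's lemma, the remaining atoms carry a mass `< ε`.
-/

set_option autoImplicit false

open Filter Topology

noncomputable section

namespace Fermat.Agent.LT.T7.H309

section Abs

variable {X : Type} [TopologicalSpace X] [CompactSpace X]
variable {ι : Type}

theorem summable_norm_eval_mul309 (p : ι → X) (x : ι → ℂ) (hx : Summable fun i => ‖x i‖)
    (f : C(X, ℂ)) : Summable fun i => ‖f (p i) * x i‖ := by
  refine Summable.of_nonneg_of_le (fun i => norm_nonneg _) (fun i => ?_) (hx.mul_left ‖f‖)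
  rw [norm_mul]
  exact mul_le_mul_of_nonneg_right (f.norm_coe_le_norm _) (norm_nonneg _)

theorem summable_eval_mul309 (p : ι → X) (x : ι → ℂ) (hx : Summable fun i => ‖x i‖)
    (f : C(X, ℂ)) : Summable fun i => f (p i) * x i :=
  (summable_norm_eval_mul309 p x hx f).of_norm

theorem norm_atomSum_sub_le309 (p : ι → X) (x : ι → ℂ) (hx : Summable fun i => ‖x i‖)
    (f g : C(X, ℂ)) :
    ‖(∑' i, f (p i) * x i) - ∑' i, g (p i) * x i‖ ≤ (∑' i, ‖x i‖) * ‖f - g‖ := by
  rw [← (summable_eval_mul309 p x hx f).tsum_sub (summable_eval_mul309 p x hx g)]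
  have h1 : ∀ i, f (p i) * x i - g (p i) * x i = (f - g) (p i) * x i := fun i => by
    simp [sub_mul]
  simp only [h1]
  refine (norm_tsum_le_tsum_norm (summable_norm_eval_mul309 p x hx (f - g))).trans ?_
  rw [← tsum_mul_right]
  refine Summable.tsum_le_tsum (fun i => ?_) (summable_norm_eval_mul309 p x hx (f - g))
    (hx.mul_right _)
  rw [norm_mul, mul_comm]
  exact mul_le_mul_of_nonneg_left ((f - g).norm_coe_le_norm _) (norm_nonneg _)

theorem continuous_atomSum309 (p : ι → X) (x : ι → ℂ) (hx : Summable fun i => ‖x i‖) :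
    Continuous fun f : C(X, ℂ) => ∑' i, f (p i) * x i := by
  have hnn : 0 ≤ ∑' i, ‖x i‖ := tsum_nonneg fun i => norm_nonneg _
  refine (LipschitzWith.of_dist_le_mul (K := ⟨∑' i, ‖x i‖, hnn⟩) fun f g => ?_).continuous
  rw [dist_eq_norm, dist_eq_norm]
  exact norm_atomSum_sub_le309 p x hx f g

variable {ι' : Type}

/-- Stone--Weierstrass: two absolutely summable atomic measures which agree on a point-separating
star-subalgebra agree on all continuous functions. -/
theorem atomSum_eq_of_sep309 (A : StarSubalgebra ℂ C(X, ℂ)) (hA : A.SeparatesPoints)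
    (p : ι → X) (p' : ι' → X) (x : ι → ℂ) (y : ι' → ℂ)
    (hx : Summable fun i => ‖x i‖) (hy : Summable fun j => ‖y j‖)
    (h : ∀ f ∈ A, ∑' i, f (p i) * x i = ∑' j, f (p' j) * y j) (f : C(X, ℂ)) :
    ∑' i, f (p i) * x i = ∑' j, f (p' j) * y j := by
  have hdense : A.topologicalClosure = ⊤ :=
    ContinuousMap.starSubalgebra_topologicalClosure_eq_top_of_separatesPoints A hA
  have hf : f ∈ closure (A : Set C(X, ℂ)) := by
    have h1 : f ∈ A.topologicalClosure := by rw [hdense]; exact StarSubalgebra.mem_top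
    exact h1
  have hclosed : IsClosed {f : C(X, ℂ) | ∑' i, f (p i) * x i = ∑' j, f (p' j) * y j} :=
    isClosed_eq (continuous_atomSum309 p x hx) (continuous_atomSum309 p' y hy)
  exact (hclosed.closure_subset_iff.mpr fun g hg => h g hg) hf


/-- Isolation of one atom: if `f` is `1` at `ω₀`, vanishes at the atoms `p i ≠ ω₀`, `i ∈ I₀`, and
is bounded by `1`, then the integral of `f` differs from the mass at `ω₀` by at most the mass
outside `I₀`. -/
theorem norm_atomSum_sub_mass_le309 (p : ι → X) (x : ι → ℂ) (hx : Summable fun i => ‖x i‖)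
    (ω₀ : X) (I₀ : Finset ι) (f : C(X, ℂ)) (h1 : f ω₀ = 1)
    (h0 : ∀ i ∈ I₀, p i ≠ ω₀ → f (p i) = 0) (hb : ∀ z, ‖f z‖ ≤ 1) :
    ‖(∑' i, f (p i) * x i) - ∑' i : {i : ι // p i = ω₀}, x i‖
      ≤ ∑' i : {i : ι // i ∉ I₀}, ‖x i‖ := by
  classical
  have hs := summable_eval_mul309 p x hx f
  have hsn := summable_norm_eval_mul309 p x hx f
  have hsplit := hs.tsum_subtype_add_tsum_subtype_compl {i : ι | p i = ω₀}
  have hfirst : ∑' i : {i : ι | p i = ω₀}, f (p i) * x i = ∑' i : {i : ι // p i = ω₀}, x i := by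
    refine tsum_congr fun i => ?_
    have hi : p i = ω₀ := i.2
    rw [hi, h1, one_mul]
  rw [← hsplit, hfirst, add_sub_cancel_left]
  refine (norm_tsum_le_tsum_norm (hsn.subtype _)).trans ?_
  have e1 : ∑' i : ({i : ι | p i = ω₀}ᶜ : Set ι), ‖f (p i) * x i‖
      = ∑' i, ({i : ι | p i = ω₀}ᶜ : Set ι).indicator (fun i => ‖f (p i) * x i‖) i :=
    tsum_subtype ({i : ι | p i = ω₀}ᶜ : Set ι) (fun i => ‖f (p i) * x i‖)
  have e2 : ∑' i : {i : ι // i ∉ I₀}, ‖x i‖
      = ∑' i, ({i : ι | i ∉ I₀} : Set ι).indicator (fun i => ‖x i‖) i :=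
    tsum_subtype ({i : ι | i ∉ I₀} : Set ι) (fun i => ‖x i‖)
  rw [e1, e2]
  refine Summable.tsum_le_tsum (fun i => ?_) (hsn.indicator _) (hx.indicator _)
  by_cases hP : p i = ω₀
  · have : i ∉ ({i : ι | p i = ω₀}ᶜ : Set ι) := fun h => h hP
    rw [Set.indicator_of_notMem this]
    exact Set.indicator_nonneg (fun _ _ => norm_nonneg _) _
  · have hmem : i ∈ ({i : ι | p i = ω₀}ᶜ : Set ι) := hP
    rw [Set.indicator_of_mem hmem]
    by_cases hI : i ∈ I₀
    · rw [h0 i hI hP, zero_mul, norm_zero]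
      exact Set.indicator_nonneg (fun _ _ => norm_nonneg _) _
    · have hmem' : i ∈ ({i : ι | i ∉ I₀} : Set ι) := hI
      rw [Set.indicator_of_mem hmem', norm_mul]
      calc ‖f (p i)‖ * ‖x i‖ ≤ 1 * ‖x i‖ :=
            mul_le_mul_of_nonneg_right (hb _) (norm_nonneg _)
        _ = ‖x i‖ := one_mul _

variable [T2Space X]

/-- **Separation of atoms.**  Two absolutely summable atomic measures on a compact Hausdorff
space which have the same integral against every function of a point-separating star-subalgebra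
have the same mass at every point. -/
theorem atoms_sep309 (A : StarSubalgebra ℂ C(X, ℂ)) (hA : A.SeparatesPoints)
    (p : ι → X) (p' : ι' → X) (x : ι → ℂ) (y : ι' → ℂ)
    (hx : Summable fun i => ‖x i‖) (hy : Summable fun j => ‖y j‖)
    (h : ∀ f ∈ A, ∑' i, f (p i) * x i = ∑' j, f (p' j) * y j) (ω₀ : X) :
    ∑' i : {i : ι // p i = ω₀}, x i = ∑' j : {j : ι' // p' j = ω₀}, y j := by
  classical
  by_contra hne
  have hd : 0 < ‖(∑' i : {i : ι // p i = ω₀}, x i) - ∑' j : {j : ι' // p' j = ω₀}, y j‖ :=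
    norm_pos_iff.mpr (sub_ne_zero.mpr hne)
  set d := ‖(∑' i : {i : ι // p i = ω₀}, x i) - ∑' j : {j : ι' // p' j = ω₀}, y j‖ with hd_def
  have hhalf : 0 < d / 2 := by positivity
  obtain ⟨I₀, hI₀⟩ := ((tendsto_order.mp (tendsto_tsum_compl_atTop_zero fun i => ‖x i‖)).2
    (d / 2) hhalf).exists
  obtain ⟨J₀, hJ₀⟩ := ((tendsto_order.mp (tendsto_tsum_compl_atTop_zero fun j => ‖y j‖)).2
    (d / 2) hhalf).exists
  let F : Set X := ((p '' (I₀ : Set ι)) ∪ (p' '' (J₀ : Set ι'))) \ {ω₀}
  have hFfin : F.Finite :=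
    (((I₀.finite_toSet.image p).union (J₀.finite_toSet.image p')).subset Set.sdiff_subset)
  have hFcl : IsClosed F := hFfin.isClosed
  have hdisj : Disjoint F {ω₀} := Set.disjoint_sdiff_left
  obtain ⟨f, hf0, hf1, hf01⟩ := exists_continuous_zero_one_of_isClosed hFcl isClosed_singleton hdisj
  let fc : C(X, ℂ) := ⟨fun z => ((f z : ℝ) : ℂ), Complex.continuous_ofReal.comp f.continuous⟩
  have hfc1 : fc ω₀ = 1 := by
    have : f ω₀ = 1 := hf1 (Set.mem_singleton ω₀)
    simp [fc, this]
  have hfcb : ∀ z, ‖fc z‖ ≤ 1 := fun z => by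
    have h01 := hf01 z
    simp only [fc, ContinuousMap.coe_mk, Complex.norm_real, Real.norm_eq_abs]
    rw [abs_of_nonneg h01.1]
    exact h01.2
  have hfc0 : ∀ i ∈ I₀, p i ≠ ω₀ → fc (p i) = 0 := fun i hi hpi => by
    have hmem : p i ∈ F := ⟨Or.inl ⟨i, hi, rfl⟩, hpi⟩
    have : f (p i) = 0 := hf0 hmem
    simp [fc, this]
  have hfc0' : ∀ j ∈ J₀, p' j ≠ ω₀ → fc (p' j) = 0 := fun j hj hpj => by
    have hmem : p' j ∈ F := ⟨Or.inr ⟨j, hj, rfl⟩, hpj⟩
    have : f (p' j) = 0 := hf0 hmem
    simp [fc, this]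
  have hX := norm_atomSum_sub_mass_le309 p x hx ω₀ I₀ fc hfc1 hfc0 hfcb
  have hY := norm_atomSum_sub_mass_le309 p' y hy ω₀ J₀ fc hfc1 hfc0' hfcb
  have heq := atomSum_eq_of_sep309 A hA p p' x y hx hy h fc
  rw [heq] at hX
  have hlt : d < d := by
    calc d = ‖((∑' i : {i : ι // p i = ω₀}, x i) - ∑' j, fc (p' j) * y j)
            + ((∑' j, fc (p' j) * y j) - ∑' j : {j : ι' // p' j = ω₀}, y j)‖ := by
          rw [hd_def]; congr 1; ring
      _ ≤ ‖(∑' i : {i : ι // p i = ω₀}, x i) - ∑' j, fc (p' j) * y j‖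
            + ‖(∑' j, fc (p' j) * y j) - ∑' j : {j : ι' // p' j = ω₀}, y j‖ := norm_add_le _ _
      _ = ‖(∑' j, fc (p' j) * y j) - ∑' i : {i : ι // p i = ω₀}, x i‖
            + ‖(∑' j, fc (p' j) * y j) - ∑' j : {j : ι' // p' j = ω₀}, y j‖ := by
          rw [norm_sub_rev]
      _ < d / 2 + d / 2 := add_lt_add (lt_of_le_of_lt hX hI₀) (lt_of_le_of_lt hY hJ₀)
      _ = d := add_halves d
  exact lt_irrefl d hlt

omit [T2Space X] in
/-- The linear span of a star-closed set is star-closed. -/
theorem star_mem_span309 (s : Set C(X, ℂ)) (hstar : ∀ f ∈ s, star f ∈ s)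
    {f : C(X, ℂ)} (hf : f ∈ Submodule.span ℂ s) : star f ∈ Submodule.span ℂ s := by
  induction hf using Submodule.span_induction with
  | mem z hz => exact Submodule.subset_span (hstar z hz)
  | zero => simp
  | add u v _ _ hu hv => rw [star_add]; exact Submodule.add_mem _ hu hv
  | smul c u _ hu => rw [star_smul]; exact Submodule.smul_mem _ _ hu

omit [T2Space X] in
/-- The star-subalgebra generated by a star-closed submonoid is contained in its linear span. -/
theorem mem_span_of_mem_starAdjoin309 (M : Submonoid C(X, ℂ)) (hstar : ∀ f ∈ M, star f ∈ M)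
    {f : C(X, ℂ)} (hf : f ∈ StarAlgebra.adjoin ℂ (M : Set C(X, ℂ))) :
    f ∈ Submodule.span ℂ (M : Set C(X, ℂ)) := by
  induction hf using StarAlgebra.adjoin_induction with
  | mem z hz => exact Submodule.subset_span hz
  | algebraMap r =>
      rw [Algebra.algebraMap_eq_smul_one]
      exact Submodule.smul_mem _ _ (Submodule.subset_span M.one_mem)
  | add a b _ _ ha hb => exact Submodule.add_mem _ ha hb
  | mul a b _ _ ha hb =>
      have h1 := Submodule.mul_mem_mul ha hb
      rw [Submodule.span_mul_span] at h1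
      refine Submodule.span_mono ?_ h1
      rintro _ ⟨u, hu, v, hv, rfl⟩
      exact M.mul_mem hu hv
  | star a _ ha => exact star_mem_span309 (M : Set C(X, ℂ)) hstar ha

omit [T2Space X] in
/-- An identity of atomic integrals on a set of functions extends to its linear span. -/
theorem atomSum_eq_on_span309 (s : Set C(X, ℂ))
    (p : ι → X) (p' : ι' → X) (x : ι → ℂ) (y : ι' → ℂ)
    (hx : Summable fun i => ‖x i‖) (hy : Summable fun j => ‖y j‖)
    (h : ∀ f ∈ s, ∑' i, f (p i) * x i = ∑' j, f (p' j) * y j)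
    {f : C(X, ℂ)} (hf : f ∈ Submodule.span ℂ s) :
    ∑' i, f (p i) * x i = ∑' j, f (p' j) * y j := by
  induction hf using Submodule.span_induction with
  | mem z hz => exact h z hz
  | zero => simp
  | add u v _ _ hu hv =>
      have e1 : ∀ i, (u + v) (p i) * x i = u (p i) * x i + v (p i) * x i := fun i => by
        simp [add_mul]
      have e2 : ∀ j, (u + v) (p' j) * y j = u (p' j) * y j + v (p' j) * y j := fun j => by
        simp [add_mul]
      simp only [e1, e2]
      rw [(summable_eval_mul309 p x hx u).tsum_add (summable_eval_mul309 p x hx v),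
        (summable_eval_mul309 p' y hy u).tsum_add (summable_eval_mul309 p' y hy v), hu, hv]
  | smul c u _ hu =>
      have e1 : ∀ i, (c • u) (p i) * x i = c * (u (p i) * x i) := fun i => by
        simp [mul_assoc]
      have e2 : ∀ j, (c • u) (p' j) * y j = c * (u (p' j) * y j) := fun j => by
        simp [mul_assoc]
      simp only [e1, e2]
      rw [tsum_mul_left, tsum_mul_left, hu]

/-- **Separation of atoms, monoid form.**  `M` a submonoid of `C(X, ℂ)`, closed under
conjugation, which separates the points of the compact Hausdorff space `X`: two absolutely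
summable atomic measures with the same integral against every element of `M` have the same mass
at every point. -/
theorem atoms_sep_monoid309 (M : Submonoid C(X, ℂ)) (hstar : ∀ f ∈ M, star f ∈ M)
    (hsep : ∀ z z' : X, z ≠ z' → ∃ f ∈ M, f z ≠ f z')
    (p : ι → X) (p' : ι' → X) (x : ι → ℂ) (y : ι' → ℂ)
    (hx : Summable fun i => ‖x i‖) (hy : Summable fun j => ‖y j‖)
    (h : ∀ f ∈ M, ∑' i, f (p i) * x i = ∑' j, f (p' j) * y j) (ω₀ : X) :
    ∑' i : {i : ι // p i = ω₀}, x i = ∑' j : {j : ι' // p' j = ω₀}, y j := by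
  refine atoms_sep309 (StarAlgebra.adjoin ℂ (M : Set C(X, ℂ))) ?_ p p' x y hx hy ?_ ω₀
  · intro z z' hzz'
    obtain ⟨f, hf, hne⟩ := hsep z z' hzz'
    exact ⟨f, ⟨f, StarAlgebra.subset_adjoin ℂ _ hf, rfl⟩, hne⟩
  · intro f hf
    exact atomSum_eq_on_span309 (M : Set C(X, ℂ)) p p' x y hx hy h
      (mem_span_of_mem_starAdjoin309 M hstar hf)

end Abs

end Fermat.Agent.LT.T7.H309

end
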