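import Mathlib
import Fermat.Agent.LT.T7.Comparison
import Fermat.Agent.LT.T7.H309.SepAbs

/-!
# Row LT, tower T7, leaf T7.C4 = SEP (helper309): separation of joint eigen-data

OFF-MAIN.  `sepC309 K : T7.SepC K` and `sepAll309 : T7.SepAll`, VERBATIM the Props of
`T7/Comparison.lean`, unconditional.

The space of parameters: `X0 S` = the functions `ω` on the generators outside `S`
(`T_w`, `S_w`, `S_w⁻¹`, `w ∉ S`; sphere means `M w d`, `d > 0`) with `|ω g| ≤ rad g` and
`conj (ω g) = ` the value of the conjugate word `cj g` (`conj T_w = T_w S_w⁻¹`,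
`conj S_w = S_w⁻¹`, `conj S_w⁻¹ = S_w`, `conj M = M`): a closed subset of a product of closed
discs, hence compact Hausdorff (it is NOT first countable: uncountably many radii `d`).
The eigenvalues of words are the monomials in the coordinates; they form a submonoid of
`C(X0 S, ℂ)`, closed under conjugation, which separates the points.  The abstract separation
`atoms_sep_monoid309` (`SepAbs.lean`: Stone--Weierstrass + Urysohn) concludes.
-/

set_option autoImplicit false

open IsDedekindDomain NumberField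
open scoped ComplexConjugate

noncomputable section

namespace Fermat.Agent.LT.T7.H309

open Fermat.Agent.LT.T7

variable {K : Type} [Field K] [NumberField K]

/-- The generators outside `S`. -/
abbrev GenOut (S : Finset (HeightOneSpectrum (𝓞 K))) : Type := {g : Gen K // g.Out S}

/-- The bound of the eigenvalue of a generator on unitary eigen-data. -/
def rad : Gen K → ℝ
  | Gen.T w => ((Ideal.absNorm w.asIdeal : ℝ) + 1) / Real.sqrt (Ideal.absNorm w.asIdeal : ℝ)
  | Gen.S _ => 1
  | Gen.Sinv _ => 1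
  | Gen.M _ _ => 4 * Real.pi

/-- The conjugate of a generator, as a word. -/
def cj (S : Finset (HeightOneSpectrum (𝓞 K))) : GenOut S → List (GenOut S)
  | ⟨Gen.T w, h⟩ => [⟨Gen.T w, h⟩, ⟨Gen.Sinv w, h⟩]
  | ⟨Gen.S w, h⟩ => [⟨Gen.Sinv w, h⟩]
  | ⟨Gen.Sinv w, h⟩ => [⟨Gen.S w, h⟩]
  | ⟨Gen.M w d, h⟩ => [⟨Gen.M w d, h⟩]

/-- The point of the parameter space defined by eigen-data. -/
def raw (S : Finset (HeightOneSpectrum (𝓞 K))) (D : EigData K) : GenOut S → ℂ :=
  fun g => g.1.ev D

/-- The compact space of unitary parameters outside `S`. -/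
def X0 (S : Finset (HeightOneSpectrum (𝓞 K))) : Set (GenOut S → ℂ) :=
  {ω | (∀ g : GenOut S, ω g ∈ Metric.closedBall (0 : ℂ) (rad g.1)) ∧
    ∀ g : GenOut S, conj (ω g) = ((cj S g).map ω).prod}

theorem isCompact_X0_309 (S : Finset (HeightOneSpectrum (𝓞 K))) : IsCompact (X0 S) := by
  have h1 : IsCompact (Set.univ.pi fun g : GenOut S => Metric.closedBall (0 : ℂ) (rad g.1)) :=
    isCompact_univ_pi fun g => isCompact_closedBall 0 _
  have h2 : IsClosed (⋂ g : GenOut S, {ω : GenOut S → ℂ | conj (ω g) = ((cj S g).map ω).prod}) := by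
    refine isClosed_iInter fun g => isClosed_eq ?_ ?_
    · exact Complex.continuous_conj.comp (continuous_apply g)
    · exact continuous_list_prod (f := fun (h : GenOut S) (ω : GenOut S → ℂ) => ω h) (cj S g)
        fun h _ => continuous_apply h
  have h3 : X0 S = (Set.univ.pi fun g : GenOut S => Metric.closedBall (0 : ℂ) (rad g.1)) ∩
      ⋂ g : GenOut S, {ω : GenOut S → ℂ | conj (ω g) = ((cj S g).map ω).prod} := by
    ext ω
    simp only [X0, Set.mem_ofPred_eq, Set.mem_inter_iff, Set.mem_pi, Set.mem_univ, true_imp_iff,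
      Set.mem_iInter]
  rw [h3]
  exact h1.inter_right h2

theorem absNorm_pos309 (w : HeightOneSpectrum (𝓞 K)) : (0 : ℝ) < (Ideal.absNorm w.asIdeal : ℝ) := by
  have h : Ideal.absNorm w.asIdeal ≠ 0 := fun h0 => w.ne_bot (Ideal.absNorm_eq_zero_iff.mp h0)
  exact_mod_cast Nat.pos_of_ne_zero h

/-- Unitary eigen-data define a point of `X0 S`. -/
theorem raw_mem_X0_309 {S : Finset (HeightOneSpectrum (𝓞 K))} {D : EigData K}
    (hD : D.IsUnitaryOut S) : raw S D ∈ X0 S := by
  refine ⟨?_, ?_⟩
  · rintro ⟨g, hg⟩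
    rw [mem_closedBall_zero_iff]
    cases g with
    | T w =>
        obtain ⟨-, -, h3⟩ := hD.1 w hg
        have hq : 0 < Real.sqrt (Ideal.absNorm w.asIdeal : ℝ) :=
          Real.sqrt_pos.mpr (absNorm_pos309 w)
        exact (le_div_iff₀ hq).mpr h3
    | S w =>
        obtain ⟨h1, -, -⟩ := hD.1 w hg
        exact h1.le
    | Sinv w =>
        obtain ⟨h1, -, -⟩ := hD.1 w hg
        show ‖(D.b w)⁻¹‖ ≤ 1
        rw [norm_inv, h1, inv_one]
    | M w d => exact (hD.2 w d hg).2
  · rintro ⟨g, hg⟩
    cases g with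
    | T w =>
        obtain ⟨h1, h2, -⟩ := hD.1 w hg
        show conj (D.a w) = ([(⟨Gen.T w, hg⟩ : GenOut S), ⟨Gen.Sinv w, hg⟩].map (raw S D)).prod
        simp only [List.map_cons, List.map_nil, List.prod_cons, List.prod_nil, mul_one, raw,
          Gen.ev]
        rw [h2, Complex.inv_eq_conj h1]
    | S w =>
        obtain ⟨h1, -, -⟩ := hD.1 w hg
        show conj (D.b w) = ([(⟨Gen.Sinv w, hg⟩ : GenOut S)].map (raw S D)).prod
        simp only [List.map_cons, List.map_nil, List.prod_cons, List.prod_nil, mul_one, raw,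
          Gen.ev]
        rw [Complex.inv_eq_conj h1]
    | Sinv w =>
        obtain ⟨h1, -, -⟩ := hD.1 w hg
        show conj (D.b w)⁻¹ = ([(⟨Gen.S w, hg⟩ : GenOut S)].map (raw S D)).prod
        simp only [List.map_cons, List.map_nil, List.prod_cons, List.prod_nil, mul_one, raw,
          Gen.ev]
        rw [Complex.inv_eq_conj h1, Complex.conj_conj]
    | M w d =>
        show conj (D.m w d) = ([(⟨Gen.M w d, hg⟩ : GenOut S)].map (raw S D)).prod
        simp only [List.map_cons, List.map_nil, List.prod_cons, List.prod_nil, mul_one, raw,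
          Gen.ev]
        exact Complex.conj_eq_iff_im.mpr (hD.2 w d hg).1

/-- Agreement outside `S` is equality of the points. -/
theorem agreeOut_iff_raw309 (S : Finset (HeightOneSpectrum (𝓞 K))) (D D' : EigData K) :
    D.AgreeOut S D' ↔ raw S D = raw S D' := by
  constructor
  · intro h
    funext g
    obtain ⟨g, hg⟩ := g
    cases g with
    | T w => exact (h.1 w hg).1
    | S w => exact (h.1 w hg).2
    | Sinv w => show (D.b w)⁻¹ = (D'.b w)⁻¹; rw [(h.1 w hg).2]
    | M w d => exact h.2 w d hg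
  · intro h
    refine ⟨fun w hw => ⟨?_, ?_⟩, fun w d hd => ?_⟩
    · exact congrFun h ⟨Gen.T w, hw⟩
    · exact congrFun h ⟨Gen.S w, hw⟩
    · exact congrFun h ⟨Gen.M w d, hd⟩

/-- The eigenvalue of a word, as a continuous function on the parameter space. -/
def wfn (S : Finset (HeightOneSpectrum (𝓞 K))) (L : List (GenOut S)) : C(X0 S, ℂ) :=
  ⟨fun ω => (L.map fun g => ω.1 g).prod,
    continuous_list_prod (f := fun (h : GenOut S) (ω : X0 S) => ω.1 h) L
      fun h _ => (continuous_apply h).comp continuous_subtype_val⟩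

theorem wfn_apply309 (S : Finset (HeightOneSpectrum (𝓞 K))) (L : List (GenOut S)) (ω : X0 S) :
    wfn S L ω = (L.map fun g => ω.1 g).prod := rfl

theorem wfn_nil309 (S : Finset (HeightOneSpectrum (𝓞 K))) : wfn S [] = 1 := by
  ext ω
  simp [wfn_apply309]

theorem wfn_append309 (S : Finset (HeightOneSpectrum (𝓞 K))) (L L' : List (GenOut S)) :
    wfn S (L ++ L') = wfn S L * wfn S L' := by
  ext ω
  simp [wfn_apply309, List.map_append, List.prod_append]

theorem star_wfn309 (S : Finset (HeightOneSpectrum (𝓞 K))) (L : List (GenOut S)) :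
    star (wfn S L) = wfn S (L.flatMap (cj S)) := by
  ext ω
  induction L with
  | nil => simp [wfn_apply309]
  | cons g L ih =>
      have h1 : star (wfn S (g :: L)) ω = conj (ω.1 g) * star (wfn S L) ω := by
        simp [wfn_apply309]
      have h2 : wfn S ((g :: L).flatMap (cj S)) ω
          = ((cj S g).map fun h => ω.1 h).prod * wfn S (L.flatMap (cj S)) ω := by
        simp [wfn_apply309, List.flatMap_cons, List.map_append, List.prod_append]
      rw [h1, h2, ih, ω.2.2 g]

/-- The monoid of the eigenvalue functions of words. -/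
def wordMonoid (S : Finset (HeightOneSpectrum (𝓞 K))) : Submonoid C(X0 S, ℂ) where
  carrier := {f | ∃ L : List (GenOut S), f = wfn S L}
  one_mem' := ⟨[], (wfn_nil309 S).symm⟩
  mul_mem' := by
    rintro _ _ ⟨L, rfl⟩ ⟨L', rfl⟩
    exact ⟨L ++ L', (wfn_append309 S L L').symm⟩

theorem wordEv_map_val309 (S : Finset (HeightOneSpectrum (𝓞 K))) (L : List (GenOut S))
    (D : EigData K) : wordEv (L.map Subtype.val) D = (L.map fun g => raw S D g).prod := by
  simp [wordEv, raw]

/-- **LEAF T7.C4 = SEP**, verbatim. -/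
theorem sepC309 (K : Type) [Field K] [NumberField K] : SepC K := by
  intro S ι ι' A B x y hx hy hA hB hword D₀
  have : CompactSpace (X0 S) := isCompact_iff_compactSpace.mp (isCompact_X0_309 S)
  let p : ι → X0 S := fun i => ⟨raw S (A i), raw_mem_X0_309 (hA i)⟩
  let p' : ι' → X0 S := fun j => ⟨raw S (B j), raw_mem_X0_309 (hB j)⟩
  by_cases hD : raw S D₀ ∈ X0 S
  · have key := atoms_sep_monoid309 (wordMonoid S)
      (by rintro _ ⟨L, rfl⟩; exact ⟨L.flatMap (cj S), star_wfn309 S L⟩)
      (by
        intro z z' hzz'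
        have hne : z.1 ≠ z'.1 := fun h => hzz' (Subtype.ext h)
        obtain ⟨g, hg⟩ := Function.ne_iff.mp hne
        exact ⟨wfn S [g], ⟨[g], rfl⟩, by simpa [wfn_apply309] using hg⟩)
      p p' x y hx hy
      (by
        rintro _ ⟨L, rfl⟩
        have h := hword (L.map Subtype.val) (by
          intro g hg
          obtain ⟨g', -, rfl⟩ := List.mem_map.mp hg
          exact g'.2)
        simp only [wordEv_map_val309] at h
        exact h)
      ⟨raw S D₀, hD⟩
    have e1 : {i : ι | (A i).AgreeOut S D₀} = {i : ι | p i = ⟨raw S D₀, hD⟩} := by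
      ext i
      simp only [Set.mem_ofPred_eq, agreeOut_iff_raw309, p, Subtype.mk.injEq]
    have e2 : {j : ι' | (B j).AgreeOut S D₀} = {j : ι' | p' j = ⟨raw S D₀, hD⟩} := by
      ext j
      simp only [Set.mem_ofPred_eq, agreeOut_iff_raw309, p', Subtype.mk.injEq]
    have a1 : ∑' i : {i : ι // (A i).AgreeOut S D₀}, x i
        = ∑' i, Set.indicator {i : ι | (A i).AgreeOut S D₀} x i :=
      tsum_subtype {i : ι | (A i).AgreeOut S D₀} x
    have a2 : ∑' j : {j : ι' // (B j).AgreeOut S D₀}, y j
        = ∑' j, Set.indicator {j : ι' | (B j).AgreeOut S D₀} y j :=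
      tsum_subtype {j : ι' | (B j).AgreeOut S D₀} y
    have b1 : ∑' i : {i : ι // p i = ⟨raw S D₀, hD⟩}, x i
        = ∑' i, Set.indicator {i : ι | p i = ⟨raw S D₀, hD⟩} x i :=
      tsum_subtype {i : ι | p i = ⟨raw S D₀, hD⟩} x
    have b2 : ∑' j : {j : ι' // p' j = ⟨raw S D₀, hD⟩}, y j
        = ∑' j, Set.indicator {j : ι' | p' j = ⟨raw S D₀, hD⟩} y j :=
      tsum_subtype {j : ι' | p' j = ⟨raw S D₀, hD⟩} y
    rw [a1, a2, e1, e2, ← b1, ← b2]
    exact key
  · have h1 : IsEmpty {i : ι // (A i).AgreeOut S D₀} :=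
      ⟨fun i => hD (by
        rw [← (agreeOut_iff_raw309 S (A i.1) D₀).mp i.2]
        exact raw_mem_X0_309 (hA i.1))⟩
    have h2 : IsEmpty {j : ι' // (B j).AgreeOut S D₀} :=
      ⟨fun j => hD (by
        rw [← (agreeOut_iff_raw309 S (B j.1) D₀).mp j.2]
        exact raw_mem_X0_309 (hB j.1))⟩
    rw [tsum_empty, tsum_empty]

/-- **`SepAll`**, verbatim. -/
theorem sepAll309 : SepAll := fun K _ _ => sepC309 K

end Fermat.Agent.LT.T7.H309

end
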